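import Fermat.Agent.LT2.Fields.Unram
import Fermat.Agent.LT.Octa.Over

/-!
# The local components of the character over the places of the sextic field
-/

set_option autoImplicit false
set_option maxRecDepth 20000

noncomputable section

open scoped Classical NumberField Pointwise
open IsDedekindDomain

namespace FermatAgent.LT2.Fields

open CFT CFT.Coh CFT.Local CFT.Global FermatAgent.GaloisBasic
open FermatAgent.LT FermatAgent.LT.Octa
open FermatAgent.LT.Period (GL3 refl3)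

lemma _root_.FermatAgent.LT.Octa.I_zpow_val_add (c : ZMod 4) :
    Complex.I ^ (c.val : ℤ) * Complex.I ^ ((-c).val : ℤ) = 1 := by
  rw [zpow_natCast, zpow_natCast, ← pow_add]
  have h : (c.val + (-c).val) % 4 = 0 := by revert c; decide
  obtain ⟨k, hk⟩ := Nat.dvd_of_mod_eq_zero h
  rw [hk, pow_mul, Complex.I_pow_four, one_pow]

namespace GRep

variable (R : GRep)

/-- The primes of `M` over a place of `L`. -/
def above (w : PK R.Lf) : Finset (PK R.Mf) :=
  {primeAt R.Mf (qOf w) (gOf w), primeAt R.Mf (qOf w) (gOf w * R.jM)}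

lemma mem_above {w : PK R.Lf} {P : PK R.Mf} : P ∈ R.above w ↔ primeBelow R.Lf P = w := by
  refine ⟨fun h => ?_, fun h => ?_⟩
  · rw [above, Finset.mem_insert, Finset.mem_singleton] at h
    rcases h with rfl | rfl
    · rw [primeBelow_eq R.Lf_le_Mf isPoint_primeAt]
      exact (isPoint_gOf w).eq_primeAt.symm
    · rw [primeBelow_eq R.Lf_le_Mf isPoint_primeAt]
      exact (R.isPoint_mul_jM (isPoint_gOf w)).eq_primeAt.symm
  suffices key : ∀ (q : ℕ) (_ : Fact q.Prime) (g : GQ), IsPoint P q g → IsPoint w q g →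
      P ∈ R.above w by
    refine key _ _ _ (isPoint_gOf P) ?_
    rw [← h, primeBelow]
    exact isPoint_primeAt
  intro q hq g hP hw
  obtain rfl : q = qOf w := (isPoint_gOf w).prime_eq hw
  obtain ⟨l, u, hu, rfl⟩ := (isPoint_gOf w).exists_mul hw
  have hl : primeAt R.Mf (qOf w) (gOf w * locHom (qOf w) (gOf w) l * u) =
      primeAt R.Mf (qOf w) (gOf w * u) := by
    refine HeightOneSpectrum.ext (Ideal.ext fun a => ?_)
    show ‖emb (qOf w) _ ((a : R.Mf) : Qbar)‖ < 1 ↔ ‖emb (qOf w) _ ((a : R.Mf) : Qbar)‖ < 1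
    rw [emb_mul, emb_mul, emb_locHom, norm_apply, ← emb_mul]
  rw [hP.eq_primeAt, hl, above, Finset.mem_insert, Finset.mem_singleton]
  by_cases hc : IsC4 (R.e u)
  · exact Or.inl (primeAt_mul_of_mem (R.mem_Mf.2 hc))
  · refine Or.inr ?_
    rw [show gOf w * u = gOf w * R.jM * (R.jM⁻¹ * u) by group]
    exact primeAt_mul_of_mem (R.mul_c4_mem R.jM_mem R.jM_not_c4 hu hc)

/-- The local component on `M` at a place of `L`. -/
def thetaW (w : PK R.Lf) : R.Mf →* ℂ := ∏ P ∈ R.above w, charC R.chi P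

/-- The local character is the product over the places above. -/
lemma thetaW_apply (w : PK R.Lf) (x : R.Mf) :
    R.thetaW w x = ∏ P ∈ R.above w, charC R.chi P x := MonoidHom.finsetProd_apply _ _ _

lemma SplitAt.thetaW_eq {w : PK R.Lf} (h : R.SplitAt (q := qOf w) (gOf w) w) (x : R.Mf) :
    R.thetaW w x = charC R.chi (primeAt R.Mf (qOf w) (gOf w)) x *
      charC R.chi (primeAt R.Mf (qOf w) (gOf w * R.jM)) x := by
  rw [thetaW_apply, above, Finset.prod_pair h.ne.symm]

/-- The local character at a single place above. -/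
lemma thetaW_of_eq {w : PK R.Lf}
    (h : primeAt R.Mf (qOf w) (gOf w * R.jM) = primeAt R.Mf (qOf w) (gOf w)) (x : R.Mf) :
    R.thetaW w x = charC R.chi (primeAt R.Mf (qOf w) (gOf w)) x := by
  rw [thetaW_apply, above, h, Finset.pair_eq_singleton, Finset.prod_singleton]

/-- The product formula for the local characters. -/
theorem prod_thetaW {x : R.Mf} (hx : x ≠ 0) : ∏ᶠ w : PK R.Lf, R.thetaW w x = 1 := by
  have hx' : (x : Qbar) ≠ 0 := by simpa using hx
  have hfin : (Function.mulSupport fun P : PK R.Mf => charC R.chi P x).Finite :=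
    (finite_invCh_support R.chi (mem_starK_of_mem R.Mf (a := Ux.mk (x : Qbar) hx') x.2)).subset
      fun P hP h0 => hP (by
        show charC R.chi P x = 1
        rw [charC_apply R.chi P hx', R.circCh_eq_one_iff]; exact h0)
  set T := hfin.toFinset
  have hT : ∀ P, P ∉ T → charC R.chi P x = 1 := fun P hP => by
    rw [Set.Finite.mem_toFinset] at hP
    exact Function.notMem_mulSupport.1 hP
  rw [finprod_eq_prod_of_mulSupport_subset _ (s := T.image (primeBelow R.Lf)) fun w hw => by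
    by_contra hno
    refine hw ?_
    show R.thetaW w x = 1
    rw [thetaW_apply]
    refine Finset.prod_eq_one fun P hP => hT P fun hPT => hno ?_
    rw [Finset.mem_coe, Finset.mem_image]
    exact ⟨P, hPT, R.mem_above.1 hP⟩]
  rw [← prod_charC R.chi hx, finprod_eq_prod_of_mulSupport_subset _ (s := T) (fun P hP => by
    rw [Finset.mem_coe, Set.Finite.mem_toFinset]; exact hP),
    ← Finset.prod_fiberwise_of_maps_to (t := T.image (primeBelow R.Lf))
      (fun P hP => Finset.mem_image_of_mem _ hP) (fun P => charC R.chi P x)]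
  refine Finset.prod_congr rfl fun w _ => ?_
  rw [thetaW_apply]
  refine (Finset.prod_subset (fun P hP => R.mem_above.2 (Finset.mem_filter.1 hP).2)
    fun P hP hP' => hT P fun hPT => hP' (Finset.mem_filter.2 ⟨hPT, R.mem_above.1 hP⟩)).symm

lemma ordP_eq_zero_of_norm_one {P : PK R.Mf} {q : ℕ} [Fact q.Prime] {g : GQ} (hP : IsPoint P q g)
    {x : R.Mf} (hx : ‖emb q g (x : Qbar)‖ = 1) : ordP P (x : Qbar) = 0 :=
  (hP.norm_eq_one_iff x.2 (fun e => by simp [e] at hx)).1 hx

/-- The values of the component at an element of the lattice of norm of order one. -/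
theorem split_values_of_mem {w : PK R.Lf} (h : R.SplitAt (q := qOf w) (gOf w) w) {ϖ : R.Mf}
    (h0 : ϖ ≠ 0) (hm : ϖ ∈ LT.Theta.Quad.lattice R.Lf R.Mf w)
    (hN : w.valuation R.Lf (Algebra.norm R.Lf ϖ) = WithZero.exp (-1 : ℤ)) {σ : GQ}
    (c1 : IsUnramWith R.chi (primeAt R.Mf (qOf w) (gOf w)) (chi4 (R.e σ)))
    (c2 : IsUnramWith R.chi (primeAt R.Mf (qOf w) (gOf w * R.jM)) (-chi4 (R.e σ))) :
    (R.thetaW w ϖ = Complex.I ^ (chi4 (R.e σ)).val ∧
        R.thetaW w (LT.Theta.Quad.conj R.Lf R.Mf ϖ) = Complex.I ^ (-chi4 (R.e σ)).val) ∨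
      (R.thetaW w ϖ = Complex.I ^ (-chi4 (R.e σ)).val ∧
        R.thetaW w (LT.Theta.Quad.conj R.Lf R.Mf ϖ) = Complex.I ^ (chi4 (R.e σ)).val) := by
  have hg := isPoint_gOf w
  have hc0 : LT.Theta.Quad.conj R.Lf R.Mf ϖ ≠ 0 :=
    (map_ne_zero_iff _ (LT.Theta.Quad.conj R.Lf R.Mf).injective).2 h0
  set P := primeAt R.Mf (qOf w) (gOf w)
  set P' := primeAt R.Mf (qOf w) (gOf w * R.jM)
  have hmem : ∀ y : R.Mf, y ∈ LT.Theta.Quad.lattice R.Lf R.Mf w → y ≠ 0 →
      0 ≤ ordP P (y : Qbar) ∧ 0 ≤ ordP P' (y : Qbar) := by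
    intro y hy hy0
    obtain ⟨a, b⟩ := (R.mem_lattice_iff hg y).1 hy
    have key : ∀ (Q : PK R.Mf) (g' : GQ), IsPoint Q (qOf w) g' →
        ‖emb (qOf w) g' (y : Qbar)‖ ≤ 1 → 0 ≤ ordP Q (y : Qbar) := fun Q g' hQ hle => by
      have hle' := (hQ.valuation_le_one_iff y).2 hle
      rw [ordP_coe, neg_nonneg, ← WithZero.exp_le_exp,
        WithZero.exp_log ((Valuation.ne_zero_iff _).2 hy0), WithZero.exp_zero]
      exact hle'
    exact ⟨key P _ isPoint_primeAt a, key P' _ isPoint_primeAt b⟩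
  obtain ⟨p1, p2⟩ := hmem ϖ hm h0
  obtain ⟨p3, p4⟩ := hmem _ (LT.Theta.Quad.conj_mem_lattice hm) hc0
  have hN0 : Algebra.norm R.Lf ϖ ≠ 0 := Algebra.norm_ne_zero_iff.2 h0
  have hvN : ordP w ((Algebra.norm R.Lf ϖ : R.Lf) : Qbar) = 1 := by
    rw [ordP_coe, show w.valuation R.Lf (Algebra.norm R.Lf ϖ) = WithZero.exp (-1 : ℤ) from
      hN, WithZero.log_exp, neg_neg]
  have hsum : ∀ Q : PK R.Mf, ordP Q ((Algebra.norm R.Lf ϖ : R.Lf) : Qbar) =
      ordP Q (ϖ : Qbar) + ordP Q ((LT.Theta.Quad.conj R.Lf R.Mf ϖ : R.Mf) : Qbar) := fun Q => by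
    rw [← ordP_mul Q ϖ.2 (LT.Theta.Quad.conj R.Lf R.Mf ϖ).2 (by simpa using h0)
      (by simpa using hc0), ← coe_algebraMap_LM, LT.Theta.Quad.norm_spec]
    rfl
  have q1 := hsum P
  have q2 := hsum P'
  rw [h.ord₁ _ hN0, hvN] at q1
  rw [h.ord₂ _ hN0, hvN] at q2
  have hswap : ordP P' (ϖ : Qbar) = 0 ↔
      ordP P ((LT.Theta.Quad.conj R.Lf R.Mf ϖ : R.Mf) : Qbar) = 0 := by
    rw [← (isPoint_primeAt (K := R.Mf) (q := qOf w) (g := gOf w * R.jM)).norm_eq_one_iff ϖ.2
        (by simpa using h0),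
      ← (isPoint_primeAt (K := R.Mf) (q := qOf w) (g := gOf w)).norm_eq_one_iff
        (LT.Theta.Quad.conj R.Lf R.Mf ϖ).2 (by simpa using hc0), R.emb_conj]
  rw [h.thetaW_eq, h.thetaW_eq, R.charC_of_unram c1 h0, R.charC_of_unram c2 h0,
    R.charC_of_unram c1 hc0, R.charC_of_unram c2 hc0]
  rcases (show ordP P (ϖ : Qbar) = 0 ∨ ordP P (ϖ : Qbar) = 1 by omega) with a0 | a1
  · have b1 : ordP P ((LT.Theta.Quad.conj R.Lf R.Mf ϖ : R.Mf) : Qbar) = 1 := by omega
    have b2 : ordP P' (ϖ : Qbar) ≠ 0 := fun z => by have := hswap.1 z; omega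
    have b3 : ordP P' (ϖ : Qbar) = 1 := by omega
    have b4 : ordP P' ((LT.Theta.Quad.conj R.Lf R.Mf ϖ : R.Mf) : Qbar) = 0 := by omega
    right
    simp only [a0, b1, b3, b4, mul_one, mul_zero, zpow_zero, one_mul, zpow_natCast, and_self]
  · have b1 : ordP P ((LT.Theta.Quad.conj R.Lf R.Mf ϖ : R.Mf) : Qbar) = 0 := by omega
    have b3 : ordP P' (ϖ : Qbar) = 0 := hswap.2 b1
    have b4 : ordP P' ((LT.Theta.Quad.conj R.Lf R.Mf ϖ : R.Mf) : Qbar) = 1 := by omega
    left
    simp only [a1, b1, b3, b4, mul_one, mul_zero, zpow_zero, one_mul, zpow_natCast, and_self]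

/-- Without inertia on `G_L` the component is trivial at the units of norm one. -/
theorem thetaW_unr {w : PK R.Lf} (hI : ∀ g, R.NoInertia (qOf w) g R.Lf) {x : R.Mf}
    (hx : x ∈ LT.Theta.Quad.lattice R.Lf R.Mf w)
    (hN : w.valuation R.Lf (Algebra.norm R.Lf x) = 1) : R.thetaW w x = 1 := by
  have hw := isPoint_gOf w
  obtain ⟨h1, h2⟩ := (R.mem_lattice_iff hw x).1 hx
  rw [hw.valuation_eq_one_iff, R.emb_norm_eq] at hN
  set a := ‖emb (qOf w) (gOf w) (x : Qbar)‖
  set b := ‖emb (qOf w) (gOf w * R.jM) (x : Qbar)‖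
  have ha : a = 1 := by
    have : 0 ≤ a := norm_nonneg _
    nlinarith
  have hb : b = 1 := by rwa [ha, one_mul] at hN
  have hx0 : x ≠ 0 := fun e => by simp [a, e] at ha
  have o1 := R.ordP_eq_zero_of_norm_one
    (isPoint_primeAt (K := R.Mf) (q := qOf w) (g := gOf w)) ha
  have o2 := R.ordP_eq_zero_of_norm_one
    (isPoint_primeAt (K := R.Mf) (q := qOf w) (g := gOf w * R.jM)) hb
  rcases R.split_or_inert hw hI with h | h
  · obtain ⟨σ, -, -, c1, c2⟩ := h.frob
    rw [h.thetaW_eq, R.charC_of_unram c1 hx0, R.charC_of_unram c2 hx0, o1, o2, mul_zero,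
      mul_zero, zpow_zero, one_mul]
  · rw [R.thetaW_of_eq h.eq, R.charC_of_unram h.chi hx0, o1, mul_zero, zpow_zero]

/-- Without inertia on `G_L` the component at an inert place is `-1` at a uniformiser. -/
theorem thetaW_inert {w : PK R.Lf} (hI : ∀ g, R.NoInertia (qOf w) g R.Lf)
    (hi : LT.Theta.Place.IsInert R.Lf R.Mf w) :
    R.thetaW w (algebraMap R.Lf R.Mf (LT.Theta.Place.unif w)) = -1 := by
  rcases R.split_or_inert (isPoint_gOf w) hI with h | h
  · exact absurd hi h.not_inert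
  have hπ := LT.Theta.Place.unif_ne_zero w
  rw [R.thetaW_of_eq h.eq, R.charC_of_unram h.chi (by simpa using hπ), coe_algebraMap_LM,
    h.ord _ hπ, ordP_coe, LT.Theta.Place.v_unif, WithZero.log_exp, neg_neg, mul_one,
    show ((2 : ZMod 4).val : ℤ) = 2 from rfl]
  simp

/-- Without inertia on `G_L` the component at a split place is `1` at a uniformiser. -/
theorem thetaW_split {w : PK R.Lf} (hI : ∀ g, R.NoInertia (qOf w) g R.Lf)
    (hni : ¬LT.Theta.Place.IsInert R.Lf R.Mf w) :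
    R.thetaW w (algebraMap R.Lf R.Mf (LT.Theta.Place.unif w)) = 1 := by
  rcases R.split_or_inert (isPoint_gOf w) hI with h | h
  · obtain ⟨σ, -, -, c1, c2⟩ := h.frob
    have hπ := LT.Theta.Place.unif_ne_zero w
    rw [h.thetaW_eq, R.charC_of_unram c1 (by simpa using hπ),
      R.charC_of_unram c2 (by simpa using hπ), coe_algebraMap_LM, h.ord₁ _ hπ, h.ord₂ _ hπ,
      ordP_coe, LT.Theta.Place.v_unif, WithZero.log_exp, neg_neg, mul_one, mul_one]
    exact I_zpow_val_add _
  · exact absurd h.inert hni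

/-- Without inertia on `G_L` the place is unramified in `M`. -/
theorem isUnr {w : PK R.Lf} (hI : ∀ g, R.NoInertia (qOf w) g R.Lf) :
    LT.Theta.Quad.IsUnr R.Lf R.Mf w :=
  (R.split_or_inert (isPoint_gOf w) hI).elim (·.unr) (·.unr)

end GRep

end FermatAgent.LT2.Fields
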