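import Fermat.Agent.LT2.Fields.Char
import Fermat.Agent.LT.Theta.Setup

/-!
# The lattice of the quadratic extension at an embedding

Over a place of `L` with embedding `g` the primes of `M` come from `g` and `g * jM`.
-/

set_option autoImplicit false
set_option maxRecDepth 20000

noncomputable section

open scoped Classical NumberField Pointwise
open IsDedekindDomain

namespace FermatAgent.LT2.Fields

open CFT CFT.Coh CFT.Local CFT.Global FermatAgent.GaloisBasic
open FermatAgent.LT FermatAgent.LT.Octa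
open FermatAgent.LT.Period (GL3 refl3)

namespace GRep

variable {q : ℕ} [hq : Fact q.Prime] {g : GQ}

variable (R : GRep)

lemma jM_sq_mem : R.jM * R.jM ∈ R.Mf.fixingSubgroup := by
  have h := R.mul_c4_mem (inv_mem R.jM_mem)
    (fun hc => R.jM_not_c4 (R.mem_Mf.1 (by simpa using inv_mem (R.mem_Mf.2 hc)))) R.jM_mem
    R.jM_not_c4
  rwa [inv_inv] at h

/-- The conjugation at an embedding. -/
lemma emb_conj (g : GQ) (x : R.Mf) :
    emb q g ((Theta.Quad.conj R.Lf R.Mf x : R.Mf) : Qbar) = emb q (g * R.jM) (x : Qbar) := by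
  rw [R.conj_eq R.jM_mem R.jM_not_c4, emb_mul]

variable {w : PK R.Lf}

/-- The conjugate of a point is a point. -/
lemma isPoint_mul_jM (hw : IsPoint w q g) : IsPoint w q (g * R.jM) := fun a => by
  rw [hw a, emb_mul, (IntermediateField.mem_fixingSubgroup_iff _ _).1 R.jM_mem _ (a : R.Lf).2]

variable (hw : IsPoint w q g)
include hw

/-- The maximal ideal seen at an embedding. -/
lemma valuation_lt_one_iff_emb (a : R.Lf) :
    w.valuation R.Lf a < 1 ↔ ‖emb q g (a : Qbar)‖ < 1 := by
  rw [lt_iff_le_and_ne, lt_iff_le_and_ne, hw.valuation_le_one_iff, Ne, Ne, hw.valuation_eq_one_iff]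

omit hw in
/-- The norm at an embedding. -/
lemma emb_norm_eq (x : R.Mf) :
    ‖emb q g ((Algebra.norm R.Lf x : R.Lf) : Qbar)‖ =
      ‖emb q g (x : Qbar)‖ * ‖emb q (g * R.jM) (x : Qbar)‖ := by
  have h := congrArg (fun y : R.Mf => emb q g (y : Qbar)) (Theta.Quad.norm_spec R.Lf R.Mf x)
  simp only [coe_algebraMap_LM, IntermediateField.coe_mul, map_mul, R.emb_conj] at h
  rw [h, norm_mul]

/-- The lattice is cut out by the two embeddings. -/
theorem mem_lattice_iff (x : R.Mf) :
    x ∈ Theta.Quad.lattice R.Lf R.Mf w ↔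
      ‖emb q g (x : Qbar)‖ ≤ 1 ∧ ‖emb q (g * R.jM) (x : Qbar)‖ ≤ 1 := by
  have hT : emb q g ((Algebra.trace R.Lf R.Mf x : R.Lf) : Qbar) =
      emb q g (x : Qbar) + emb q (g * R.jM) (x : Qbar) := by
    have h := congrArg (fun y : R.Mf => emb q g (y : Qbar)) (Theta.Quad.trace_spec R.Lf R.Mf x)
    simp only [coe_algebraMap_LM, IntermediateField.coe_add, map_add, R.emb_conj] at h
    exact h
  constructor
  · intro hx
    have h1 := (hw.valuation_le_one_iff _).1 (Theta.Quad.v_norm_le hx)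
    have h2 := (hw.valuation_le_one_iff _).1 (Theta.Quad.v_trace_le hx)
    rw [R.emb_norm_eq] at h1
    rw [hT] at h2
    set a := emb q g (x : Qbar)
    set b := emb q (g * R.jM) (x : Qbar)
    by_contra hne
    rw [not_and_or, not_le, not_le] at hne
    have hmax : ‖a‖ ≠ ‖b‖ := fun e => by
      rw [← e] at h1 hne
      rcases hne with h | h <;> nlinarith
    rw [IsUltrametricDist.norm_add_eq_max_of_norm_ne_norm hmax] at h2
    rcases hne with h | h
    · exact absurd ((le_max_left _ _).trans h2) (not_le.2 h)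
    · exact absurd ((le_max_right _ _).trans h2) (not_le.2 h)
  · rintro ⟨h1, h2⟩
    refine Theta.Quad.mem_lattice_of ((hw.valuation_le_one_iff _).2 ?_)
      ((hw.valuation_le_one_iff _).2 ?_)
    · rw [hT]; exact (IsUltrametricDist.norm_add_le_max _ _).trans (max_le h1 h2)
    · rw [R.emb_norm_eq]; exact mul_le_one₀ h1 (norm_nonneg _) h2

omit hw in
/-- In the inert case conjugates have equal size. -/
lemma norm_eq_of_primeAt_eq (h : primeAt R.Mf q (g * R.jM) = primeAt R.Mf q g) (x : R.Mf) :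
    ‖emb q (g * R.jM) (x : Qbar)‖ = ‖emb q g (x : Qbar)‖ := by
  refine norm_emb_eq (K := R.Mf) (fun a ha => ?_) x.2
  rw [← (isPoint_primeAt (K := R.Mf) (q := q) (g := g * R.jM)).valuation_le_one_iff ⟨a, ha⟩,
    ← (isPoint_primeAt (K := R.Mf) (q := q) (g := g)).valuation_le_one_iff ⟨a, ha⟩, h]

omit hw in
/-- Stability of the prime of `M` under the conjugation. -/
lemma primeAt_jM_of_decomposition {σ : GQ} (hσD : σ ∈ (plA q g).decompositionSubgroup ℚ)
    (hσ : σ ∈ R.Lf.fixingSubgroup) (hσM : ¬IsC4 (R.e σ)) :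
    primeAt R.Mf q (g * R.jM) = primeAt R.Mf q g := by
  have hu := R.mul_c4_mem R.jM_mem R.jM_not_c4 hσ hσM
  rw [← primeAt_mul_of_mem (q := q) (g := g * R.jM) hu, mul_assoc, mul_inv_cancel_left,
    primeAt_mul_of_decomposition hσD]

/-- Two primes above: the place is split and unramified. -/
theorem isUnr_of_ne (h : primeAt R.Mf q (g * R.jM) ≠ primeAt R.Mf q g) :
    Theta.Quad.IsUnr R.Lf R.Mf w ∧ ¬Theta.Place.IsInert R.Lf R.Mf w := by
  set P := primeAt R.Mf q g
  set P' := primeAt R.Mf q (g * R.jM)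
  obtain ⟨a, ha, ha'⟩ : ∃ a : 𝓞 R.Mf, a ∈ P.asIdeal ∧ a ∉ P'.asIdeal := by
    by_contra hno
    push Not at hno
    exact h (HeightOneSpectrum.ext (P.isMaximal.eq_of_le P'.isPrime.ne_top hno).symm)
  set x : R.Mf := (a : R.Mf)
  have h1 : ‖emb q g (x : Qbar)‖ < 1 := (isPoint_primeAt a).1 ha
  have h2 : ‖emb q (g * R.jM) (x : Qbar)‖ = 1 :=
    le_antisymm (norm_emb_int _ a) (not_lt.1 fun h => ha' ((isPoint_primeAt a).2 h))
  have hx : x ∈ Theta.Quad.lattice R.Lf R.Mf w := (R.mem_lattice_iff hw x).2 ⟨h1.le, h2.le⟩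
  refine ⟨⟨x, hx, ?_⟩, fun hin => ?_⟩
  · rw [hw.valuation_eq_one_iff, R.emb_norm_eq]
    have e1 : emb q g ((Theta.Quad.conj R.Lf R.Mf x - x : R.Mf) : Qbar) =
        emb q (g * R.jM) (x : Qbar) + -emb q g (x : Qbar) := by
      rw [AddSubgroupClass.coe_sub, map_sub, R.emb_conj, sub_eq_add_neg]
    have e2 : emb q (g * R.jM) ((Theta.Quad.conj R.Lf R.Mf x - x : R.Mf) : Qbar) =
        emb q g (x : Qbar) + -emb q (g * R.jM) (x : Qbar) := by
      rw [AddSubgroupClass.coe_sub, map_sub, R.emb_conj, sub_eq_add_neg]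
      congr 1
      rw [mul_assoc, emb_mul, (IntermediateField.mem_fixingSubgroup_iff _ _).1 R.jM_sq_mem _ x.2]
    rw [e1, e2, IsUltrametricDist.norm_add_eq_max_of_norm_ne_norm
      (by rw [norm_neg, h2]; exact h1.ne'),
      IsUltrametricDist.norm_add_eq_max_of_norm_ne_norm (by rw [norm_neg, h2]; exact h1.ne),
      norm_neg, norm_neg, h2, max_eq_left h1.le, max_eq_right h1.le, one_mul]
  · have hN : w.valuation R.Lf (Algebra.norm R.Lf x) < 1 := by
      rw [R.valuation_lt_one_iff_emb hw, R.emb_norm_eq, h2, mul_one]; exact h1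
    have h3 := ((R.mem_lattice_iff hw _).1 (hin x hx hN)).2
    have hπ : ‖emb q g ((Theta.Place.unif w : R.Lf) : Qbar)‖ < 1 := by
      rw [← R.valuation_lt_one_iff_emb hw, Theta.Place.v_unif, ← WithZero.exp_zero,
        WithZero.exp_lt_exp]
      norm_num
    rw [Algebra.smul_def, IntermediateField.coe_mul, coe_algebraMap_LM, IntermediateField.coe_inv,
      map_mul, map_inv₀, norm_mul, norm_inv, h2, mul_one, emb_mul,
      (IntermediateField.mem_fixingSubgroup_iff _ _).1 R.jM_mem _ (Theta.Place.unif w).2] at h3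
    have hpos : 0 < ‖emb q g ((Theta.Place.unif w : R.Lf) : Qbar)‖ :=
      norm_pos_iff.mpr ((_root_.map_ne_zero _).mpr (by simpa using Theta.Place.unif_ne_zero w))
    exact absurd ((inv_le_one₀ hpos).1 h3) (not_le.2 hπ)

end GRep

end FermatAgent.LT2.Fields
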