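import Fermat.Agent.LT2.Fields.Rep
import Fermat.Agent.LT.Mod3.Galois.Torsion
import Fermat.Agent.GaloisBasic.CharpolyDensity

/-!
# Auxiliary inert primes

For every `m ≠ 0` there are infinitely many primes `p ≡ -1 (mod 3m)` with Frobenius image of
order eight: such a `p` is inert in `K`, the place over it splits completely in `L`, and
`-p ≡ 1 (mod m)` generates it.
-/

set_option autoImplicit false

noncomputable section

open scoped commutatorElement Pointwise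
open FermatAgent.GaloisBasic
open FermatAgent.LT.Period (GL3)

namespace FermatAgent.LT2.Fields

set_option synthInstance.maxSize 2000 in
set_option maxRecDepth 100000 in
/-- Every element of determinant `-1` is moved to order eight by a commutator. -/
lemma exists_commutator_eight : ∀ x : GL3, x.val.det = -1 →
    ∃ a b : GL3, (x * (a * b * a⁻¹ * b⁻¹)) ^ 4 ≠ 1 := by
  simp only [FermatAgent.LT.Octa.forall_gl3, FermatAgent.LT.Octa.exists_gl3]
  decide +kernel

set_option maxRecDepth 100000 in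
lemma pow_eight_eq_one : ∀ x : GL3, x.val.det = -1 → x ^ 8 = 1 := by
  rw [FermatAgent.LT.Octa.forall_gl3]
  decide +kernel

lemma orderOf_eq_eight {x : GL3} (hd : x.val.det = -1) (h4 : x ^ 4 ≠ 1) : orderOf x = 8 :=
  orderOf_eq_prime_pow (p := 2) (n := 2) h4 (pow_eight_eq_one x hd)

/-- An automorphism inverting the roots of unity of order `n`. -/
lemma exists_inv_root {n : ℕ} (hn : 0 < n) {ζ : Qbar} (hζ : IsPrimitiveRoot ζ n) :
    ∃ τ : GQ, τ ζ = ζ⁻¹ := by
  have h1 : minpoly ℚ ζ = Polynomial.cyclotomic n ℚ :=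
    (Polynomial.cyclotomic_eq_minpoly_rat hζ hn).symm
  have h2 : minpoly ℚ ζ⁻¹ = Polynomial.cyclotomic n ℚ :=
    (Polynomial.cyclotomic_eq_minpoly_rat hζ.inv hn).symm
  obtain ⟨τ, hτ⟩ := minpoly.exists_algEquiv_of_root' (Algebra.IsAlgebraic.isAlgebraic ζ)
    (show Polynomial.aeval ζ⁻¹ (minpoly ℚ ζ) = 0 by rw [h1, ← h2]; exact minpoly.aeval ℚ _)
  exact ⟨τ, hτ⟩

/-- A commutator fixes the roots of unity. -/
lemma commutator_fix {n : ℕ} [NeZero n] (σ τ : GQ) {ζ : Qbar} (hζ : IsPrimitiveRoot ζ n) :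
    (⁅σ, τ⁆) ζ = ζ := by
  have h := hζ.autToPow_spec ℚ ⁅σ, τ⁆
  rw [map_commutatorElement, commutatorElement_eq_one_iff_commute.2 (Commute.all _ _),
    Units.val_one, ZMod.val_one_eq_one_mod, hζ.eq_orderOf, pow_mod_orderOf] at h
  simpa using h.symm

/-- The image of a Frobenius element is determined up to conjugation. -/
lemma orderOf_frob_eq (R : GRep) {p : ℕ} (hp : p.Prime)
    (hU : ∀ A : ValuationSubring Qbar, A.LiesOverPrime p → ∀ σ ∈ A.inertiaSubgroupIn ℚ, R.e σ = 1)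
    {A A' : ValuationSubring Qbar} (hA : A.LiesOverPrime p) (hA' : A'.LiesOverPrime p)
    {σ σ' : GQ} (hσ : A.IsFrobeniusAt σ p) (hσ' : A'.IsFrobeniusAt σ' p) :
    orderOf (R.e σ) = orderOf (R.e σ') := by
  obtain ⟨t, ht⟩ := exists_smul_eq hp hA' hA
  have hF := conj_isFrobeniusAt hp hA' hσ' t
  rw [ht] at hF
  have h1 := hU A hA _ (mul_inv_mem_inertiaSubgroupIn hp hA hσ hF)
  rw [map_mul, map_inv, map_mul, map_mul, map_inv, mul_inv_eq_one] at h1
  rw [h1]
  exact (MulAut.conj (R.e t)).orderOf_eq (R.e σ')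

/-- **Auxiliary primes.** -/
theorem exists_aux_prime (R : GRep) (m : ℕ) (hm : m ≠ 0) (avoid : Finset ℕ) :
    ∃ p : ℕ, p.Prime ∧ p % 3 = 2 ∧ p ∉ avoid ∧ (p : ZMod m) = -1 ∧
      (∀ A : ValuationSubring Qbar, A.LiesOverPrime p → ∀ σ ∈ A.inertiaSubgroupIn ℚ, R.e σ = 1) ∧
      ∀ A : ValuationSubring Qbar, A.LiesOverPrime p → ∀ σ : GQ, A.IsFrobeniusAt σ p →
        orderOf (R.e σ) = 8 := by
  set M := 3 * m
  have : NeZero M := ⟨mul_ne_zero three_ne_zero hm⟩
  obtain ⟨ζ, hζ⟩ := HasEnoughRootsOfUnity.exists_primitiveRoot Qbar M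
  obtain ⟨c, hc⟩ := exists_inv_root (NeZero.pos M) hζ
  have hζ3 : IsPrimitiveRoot (ζ ^ m) 3 := hζ.pow (NeZero.pos M) (mul_comm 3 m)
  have hdet : (R.e c).val.det = -1 := by
    have h1 := R.det c (ζ ^ m) hζ3.pow_eq_one
    rw [map_pow, hc, inv_pow] at h1
    have h2 : (ζ ^ m)⁻¹ = (ζ ^ m) ^ 2 := inv_eq_of_mul_eq_one_right (by
      rw [← pow_succ', hζ3.pow_eq_one])
    rw [h2] at h1
    have h3 := hζ3.pow_inj (by norm_num) (ZMod.val_lt _) h1
    rw [← ZMod.natCast_zmod_val (R.e c).val.det, ← h3]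
    decide
  obtain ⟨a, b, hab⟩ := exists_commutator_eight _ hdet
  obtain ⟨σa, rfl⟩ := R.surj a
  obtain ⟨σb, rfl⟩ := R.surj b
  set σ₀ := c * ⁅σa, σb⁆
  have he : orderOf (R.e σ₀) = 8 := by
    have e : R.e σ₀ = R.e c * ⁅R.e σa, R.e σb⁆ := by rw [map_mul, map_commutatorElement]
    rw [e]
    refine orderOf_eq_eight ?_ (by rw [commutatorElement_def]; exact hab)
    rw [commutatorElement_def, Units.val_mul, Units.val_mul, Units.val_mul, Units.val_mul]
    simp only [Matrix.det_mul]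
    have h1 : ∀ x : GL3, x.val.det * ((x⁻¹ : GL3)).val.det = 1 := fun x => by
      rw [← Matrix.det_mul, ← Units.val_mul, mul_inv_cancel, Units.val_one, Matrix.det_one]
    linear_combination hdet + (R.e c).val.det * h1 (R.e σb) +
      (R.e c).val.det * (R.e σb).val.det * ((R.e σb)⁻¹ : GL3).val.det * h1 (R.e σa)
  have hσ₀ζ : σ₀ ζ = ζ⁻¹ := by rw [AlgEquiv.mul_apply, commutator_fix σa σb hζ, hc]
  have : FiniteDimensional ℚ (IntermediateField.adjoin ℚ {ζ}) :=
    IntermediateField.adjoin.finiteDimensional (Algebra.IsIntegral.isIntegral ζ)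
  set E := R.Nf ⊔ IntermediateField.adjoin ℚ {ζ}
  obtain ⟨T, -, hT⟩ := R.exists_unramified
  obtain ⟨p, A, fr, j, i, hp, hpS, hA, hfr, -, hj, hi⟩ :=
    exists_frobenius_pow_congr E σ₀ (avoid ∪ T ∪ M.primeFactors)
  simp only [Finset.mem_union, not_or, Nat.mem_primeFactors] at hpS
  have hpM : ¬ p ∣ M := fun h => hpS.2 ⟨hp, h, NeZero.ne M⟩
  have hfixe : ∀ g ∈ E.fixingSubgroup, R.e g = 1 ∧ g ζ = ζ := fun g hg =>
    ⟨R.e_eq_of_mem_Nf (IntermediateField.fixingSubgroup_antitone le_sup_left hg),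
      (IntermediateField.mem_fixingSubgroup_iff _ _).1 hg ζ
        ((le_sup_right : IntermediateField.adjoin ℚ {ζ} ≤ E)
          (IntermediateField.mem_adjoin_simple_self ℚ ζ))⟩
  have e1 : R.e fr = R.e σ₀ ^ i := by
    rw [show fr = σ₀ ^ i * ((σ₀ ^ i)⁻¹ * fr) by group, map_mul, map_pow, (hfixe _ hi).1, mul_one]
  have e2 : R.e σ₀ = R.e fr ^ j := by
    rw [show σ₀ = fr ^ j * ((fr ^ j)⁻¹ * σ₀) by group, map_mul, map_pow, (hfixe _ hj).1, mul_one]
  have hodd : Odd i := by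
    have h3 : R.e σ₀ ^ (i * j) = R.e σ₀ ^ 1 := by rw [pow_mul, ← e1, ← e2, pow_one]
    have h4 := (pow_inj_mod (x := R.e σ₀)).1 h3
    rw [he] at h4
    have : Odd (i * j) := Nat.odd_iff.2 (by omega)
    exact (Nat.odd_mul.1 this).1
  have horder : orderOf (R.e fr) = 8 := by
    rw [e1, Nat.Coprime.orderOf_pow, he]
    rw [he]
    exact Nat.Coprime.pow_left 3 (Nat.coprime_two_left.2 hodd)
  have hfrζ : fr ζ = ζ⁻¹ := by
    have h1 : ∀ k : ℕ, (σ₀ ^ k) ζ = if Even k then ζ else ζ⁻¹ := fun k => by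
      induction k with
      | zero => simp
      | succ k ih =>
        rw [pow_succ', AlgEquiv.mul_apply, ih]
        by_cases hk : Even k <;> simp [hk, Nat.even_add_one, hσ₀ζ]
    rw [show fr = σ₀ ^ i * ((σ₀ ^ i)⁻¹ * fr) by group, AlgEquiv.mul_apply, (hfixe _ hi).2, h1,
      if_neg (Nat.not_even_iff_odd.2 hodd)]
  have hfrob := LT.Mod3.frobenius_rootOfUnity hp hpM hA hfr hζ.pow_eq_one
  rw [hfrζ] at hfrob
  have hdvd : M ∣ p + 1 := hζ.dvd_of_pow_eq_one (p + 1) (by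
    rw [pow_succ, ← hfrob, inv_mul_cancel₀ (hζ.ne_zero (NeZero.ne M))])
  refine ⟨p, hp, ?_, hpS.1.1, ?_, fun A' hA' => hT p hp hpS.1.2 A' hA', fun A' hA' σ' hσ' => ?_⟩
  · obtain ⟨d, hd⟩ := (dvd_mul_right 3 m).trans hdvd
    omega
  · have h1 : ((p + 1 : ℕ) : ZMod m) = 0 :=
      (ZMod.natCast_eq_zero_iff _ _).2 ((dvd_mul_left m 3).trans hdvd)
    push_cast at h1
    exact eq_neg_of_add_eq_zero_left h1
  · exact (orderOf_frob_eq R hp (fun A hA => hT p hp hpS.1.2 A hA) hA' hA hσ' hfr).trans horder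

end FermatAgent.LT2.Fields
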