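import Fermat.Agent.LT2.Fields.Places
import Fermat.Agent.LT.Octa.Good

/-!
# The good primes

Nothing is assumed on inertia at three.
-/

set_option autoImplicit false

noncomputable section

open scoped Classical NumberField Pointwise
open IsDedekindDomain

namespace FermatAgent.LT2.Fields

open CFT CFT.Coh CFT.Local CFT.Global FermatAgent.GaloisBasic
open FermatAgent.LT FermatAgent.LT.Octa
open FermatAgent.LT.Period (GL3 refl3)

namespace GRep

variable {F0 : IntermediateField ℚ Qbar} [FiniteDimensional ℚ F0]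
variable {q : ℕ} [hq : Fact q.Prime] {g : GQ}

variable (R : GRep)

lemma isFrobAt_comp {σ σ' : GQ} {Q Q' : ℕ} (h : R.IsFrobAt q g σ Q) (h' : R.IsFrobAt q g σ' Q') :
    R.IsFrobAt q g (σ * σ') (Q' * Q) := fun x hx hxi => by
  have hxi' : IsIntegral ℤ (σ' x) := hxi.map (σ'.toAlgHom.restrictScalars ℤ)
  have h1 := h (σ' x) (R.apply_mem_Nf σ' hx) hxi'
  have hle : ‖emb q g x ^ Q'‖ ≤ 1 := by
    rw [norm_pow]; exact pow_le_one₀ (norm_nonneg _) (norm_emb_integral g hxi)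
  have h2 := OctaRep.norm_pow_sub_pow_lt (norm_emb_integral g hxi') hle (h' x hx hxi) Q
  rw [AlgEquiv.mul_apply, pow_mul, show emb q g (σ (σ' x)) - (emb q g x ^ Q') ^ Q =
    (emb q g (σ (σ' x)) - emb q g (σ' x) ^ Q) + (emb q g (σ' x) ^ Q - (emb q g x ^ Q') ^ Q) by ring]
  exact (IsUltrametricDist.norm_add_le_max _ _).trans_lt (max_lt h1 h2)

/-- Frobenius elements of the place give Frobenius data. -/
lemma isFrobAt_of_isFrobeniusAt {σ : GQ} (hσ : (plA q g).IsFrobeniusAt σ q) :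
    R.IsFrobAt q g σ q := fun x _ hx => by
  have := (isFrobeniusAt_iff hq.out (liesOverPrime_plA g) σ).1 hσ ⟨x, hx⟩
  rw [mem_center_plA] at this
  rw [← map_pow, ← map_sub]
  exact this

/-- The determinant of a Frobenius. -/
lemma det_frob (hq3 : q ≠ 3) {σ : GQ} (h : R.IsFrobAt q g σ q) :
    (R.e σ).val.det = (q : ZMod 3) := by
  set z : Qbar := (R.zeta3 : Qbar)
  have hz : IsPrimitiveRoot z 3 :=
    R.zeta3_spec.map_of_injective (f := R.Kf.val) R.Kf.val.injective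
  have h1 := h z (R.le_Nf slThree R.zeta3.2) (IsIntegral.of_pow (by norm_num : 0 < 3)
    (by rw [hz.pow_eq_one]; exact isIntegral_one))
  rw [R.det σ z hz.pow_eq_one, map_pow] at h1
  set y := emb q g z
  have hy : y ^ 3 = 1 := by rw [← map_pow, hz.pow_eq_one, map_one]
  have hy1 : ‖y‖ = 1 := norm_eq_one_of_pow_eq_one (by norm_num) hy
  have h2 := eq_of_res_eq (n := 3) (fun hd => hq3 ((Nat.prime_dvd_prime_iff_eq hq.out
    Nat.prime_three).1 hd)) (by rw [← pow_mul, mul_comm, pow_mul, hy, one_pow])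
    (by rw [← pow_mul, mul_comm, pow_mul, hy, one_pow])
    ((res_eq_res_iff (by rw [norm_pow, hy1, one_pow]) (by rw [norm_pow, hy1, one_pow])).2 h1)
  rw [← map_pow, ← map_pow] at h2
  have h4 := emb_injective (q := q) g h2
  have h3 : z ^ (R.e σ).val.det.val = z ^ (q % 3) := by
    rw [h4]; exact pow_eq_pow_mod q hz.pow_eq_one
  have h5 := hz.pow_inj (ZMod.val_lt _) (Nat.mod_lt _ (by norm_num)) h3
  rw [← ZMod.natCast_zmod_val (R.e σ).val.det, h5, ZMod.natCast_mod]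

/-- Frobenius images exist. -/
lemma exists_gP (p : ℕ) : ∃ g : GL3, p.Prime → ∃ (A : ValuationSubring Qbar) (σ : GQ),
    A.LiesOverPrime p ∧ A.IsFrobeniusAt σ p ∧ R.e σ = g := by
  by_cases hp : p.Prime
  · obtain ⟨A, hA⟩ := exists_liesOverPrime hp
    obtain ⟨σ, hσ⟩ := exists_isFrobeniusAt hp hA
    exact ⟨R.e σ, fun _ => ⟨A, σ, hA, hσ, rfl⟩⟩
  · exact ⟨1, fun h => absurd h hp⟩

/-- A Frobenius class at every prime. -/
def gP (p : ℕ) : GL3 := (R.exists_gP p).choose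

/-- A Frobenius at any point is in the class. -/
lemma exists_conj_gP (g : GQ) :
    ∃ (σ : GQ) (t : GL3), R.IsFrobAt q g σ q ∧ R.e σ = t * R.gP q * t⁻¹ := by
  obtain ⟨A, σ₀, hA, hσ₀, he⟩ := (R.exists_gP q).choose_spec hq.out
  obtain ⟨u, hu⟩ := exists_smul_eq hq.out hA (liesOverPrime_plA g)
  refine ⟨u * σ₀ * u⁻¹, R.e u, R.isFrobAt_of_isFrobeniusAt ?_, ?_⟩
  · rw [← hu]; exact conj_isFrobeniusAt hq.out hA hσ₀ u
  · rw [map_mul, map_mul, map_inv, he]; rfl

/-- The determinant of Frobenius is the prime. -/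
lemma det_gP {p : ℕ} (hp : p.Prime) (hbad : p ∉ R.badP) : (R.gP p).val.det = (p : ZMod 3) := by
  have : Fact p.Prime := ⟨hp⟩
  obtain ⟨σ, t, hfr, he⟩ := R.exists_conj_gP (q := p) (1 : GQ)
  have h := R.det_frob (fun h3 : p = 3 => hbad (h3.symm ▸ R.three_mem_badP)) hfr
  have hd : Matrix.GeneralLinearGroup.det (R.e σ) = Matrix.GeneralLinearGroup.det (R.gP p) := by
    rw [he, map_mul, map_mul, map_inv, mul_right_comm, mul_inv_cancel, one_mul]
  rw [← h]
  exact (congrArg Units.val hd).symm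

variable {v : PK R.Kf}

/-- The Frobenius of `K` at a good point. -/
theorem exists_frob_K (hbad : q ∉ R.badP) (hv : IsPoint v q g) :
    ∃ σ ∈ R.Kf.fixingSubgroup, R.IsFrobAt q g σ v.asIdeal.absNorm ∧ ∃ t : GL3,
      (q % 3 = 1 ∧ v.asIdeal.absNorm = q ∧ R.e σ = t * R.gP q * t⁻¹) ∨
      (q % 3 = 2 ∧ v.asIdeal.absNorm = q ^ 2 ∧ R.e σ = t * (R.gP q * R.gP q) * t⁻¹) := by
  have hq3 : q ≠ 3 := fun h => hbad (h.symm ▸ R.three_mem_badP)
  obtain ⟨σ, t, hfr, he⟩ := R.exists_conj_gP (q := q) g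
  have hdet := R.det_frob hq3 hfr
  obtain ⟨f, hf0, hf⟩ := exists_resCard_eq_pow (locField q g R.Kf)
  rw [resCard_eq_absNorm hv] at hf
  have hpow : ∀ (τ : GQ) (N : ℕ), 1 < N → τ ∈ R.Kf.fixingSubgroup → R.IsFrobAt q g τ N →
      v.asIdeal.absNorm ≤ N := fun τ N hN hτ hτfr => absNorm_le_of_pow hN fun a => by
    have h := hτfr ((a : R.Kf) : Qbar) (R.le_Nf slThree (a : R.Kf).2)
      ((NumberField.RingOfIntegers.isIntegral_coe a).map (IsScalarTower.toAlgHom ℤ R.Kf Qbar))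
    rw [(IntermediateField.mem_fixingSubgroup_iff _ _).1 hτ _ (a : R.Kf).2, ← norm_neg,
      neg_sub] at h
    rw [hv]
    push_cast
    rw [map_sub, map_pow]
    exact h
  have hlt : 1 < q := hq.out.one_lt
  have hmod : q % 3 = 1 ∨ q % 3 = 2 := by
    have : q % 3 ≠ 0 := fun h => hq3 ((Nat.prime_dvd_prime_iff_eq Nat.prime_three hq.out).1
      (Nat.dvd_of_mod_eq_zero h)).symm
    omega
  rcases hmod with h1 | h2
  · have hσK : σ ∈ R.Kf.fixingSubgroup := R.mem_Kf.2 (by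
      rw [hdet, ← ZMod.natCast_mod q 3, h1, Nat.cast_one])
    have hle := hpow σ q hlt hσK hfr
    have hf1 : f = 1 := by
      rw [hf] at hle
      have := (Nat.pow_le_pow_iff_right hlt).1 (hle.trans_eq (pow_one q).symm)
      omega
    rw [hf1, pow_one] at hf
    exact ⟨σ, hσK, hf.symm ▸ hfr, t, Or.inl ⟨h1, hf, he⟩⟩
  · have hσ2 : σ * σ ∈ R.Kf.fixingSubgroup := R.mem_Kf.2 (by
      rw [map_mul, Units.val_mul, Matrix.det_mul, hdet, ← ZMod.natCast_mod q 3, h2]
      decide)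
    have hfr2 := R.isFrobAt_comp hfr hfr
    have hle := hpow _ _ (Nat.one_lt_mul_iff.2 ⟨by omega, by omega, Or.inl hlt⟩) hσ2 hfr2
    have hf2 : f = 2 := by
      rw [hf, ← sq] at hle
      have h2f := (Nat.pow_le_pow_iff_right hlt).1 hle
      by_contra hne
      obtain rfl : f = 1 := by omega
      obtain ⟨m, hm, d₀, -, hd₀, hfr₀, -⟩ :=
        R.exists_unr q g R.Kf (R.le_Nf slThree) (R.noInertia_good hbad R.Kf g)
      rw [resCard_eq_absNorm hv, hf, pow_one] at hfr₀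
      have h := R.e_eq_of_isFrobAt (F0 := (⊥ : IntermediateField ℚ Qbar)) bot_le
        (R.noInertia_good hbad ⊥ g) (by rw [IntermediateField.fixingSubgroup_bot]; trivial)
        (by rw [IntermediateField.fixingSubgroup_bot]; trivial) hfr₀ hfr
      have hd := R.mem_Kf.1 (locHom_mem hd₀)
      rw [h, hdet, ← ZMod.natCast_mod q 3, h2] at hd
      exact absurd hd (by decide)
    rw [hf2] at hf
    refine ⟨σ * σ, hσ2, by rw [hf, sq]; exact hfr2, t, Or.inr ⟨h2, hf, ?_⟩⟩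
    rw [map_mul, he]
    group

/-- A quaternionic Frobenius splits the place. -/
theorem split_of_q8 (hbad : q ∉ R.badP) (hv : IsPoint v q g) {σ : GQ}
    (hσ : σ ∈ R.Kf.fixingSubgroup) (hfr : R.IsFrobAt q g σ v.asIdeal.absNorm)
    (h8 : IsQ8 (R.e σ)) :
    placeMap R.tau (primeAt R.Lf q g) ≠ primeAt R.Lf q g ∧
      (primeAt R.Lf q g).asIdeal.absNorm = v.asIdeal.absNorm := by
  obtain ⟨m, hm, d₀, -, hd₀, hfr₀, hall⟩ :=
    R.exists_unr q g R.Kf (R.le_Nf slThree) (R.noInertia_good hbad R.Kf g)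
  rw [resCard_eq_absNorm hv] at hfr₀
  have he := R.e_eq_of_isFrobAt (R.le_Nf slThree) (R.noInertia_good hbad R.Kf g) (locHom_mem hd₀)
    hσ hfr₀ hfr
  have hq8 : ∀ d ∈ (locField q g R.Kf).fixingSubgroup, IsQ8 (R.e (locHom q g d)) := fun d hd => by
    rw [hall d hd, he]; exact q8.pow_mem h8 _
  refine ⟨fun hfix => ?_, ?_⟩
  · obtain ⟨d, hd, hne⟩ := R.exists_not_q8 (isPoint_primeAt (K := R.Lf) (q := q) (g := g)) hfix
    exact hne (hq8 d hd)
  · have hF : locField q g R.Lf = locField q g R.Kf :=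
      locField_eq_of_forall R.Kf_le_Lf fun d hd => R.mem_Lf.2 (hq8 d hd)
    rw [← resCard_eq_absNorm (isPoint_primeAt (K := R.Lf) (q := q) (g := g)),
      ← resCard_eq_absNorm hv, hF]

end GRep

end FermatAgent.LT2.Fields
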