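import Fermat.Agent.LT2.Defs
import Fermat.Agent.LT2.Fields.AuxPrime
import Fermat.Agent.LT2.Fields.Good
import Fermat.Agent.LT.Descent.NonSplitBase
import Fermat.Agent.LT.Lift.Vec

/-!
# The setting, the eigenvalues and the traces of a surjection onto `GL₂(𝔽₃)`

The bad places are those over the primes ramified in the splitting field, over two, over three and
over any further finite set of primes.  The eigenvalue at a place is `√q` times the trace of the
lift at a Frobenius.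
-/

set_option autoImplicit false

noncomputable section

open scoped Classical NumberField Pointwise
open IsDedekindDomain

namespace FermatAgent.LT2.Fields

open CFT CFT.Coh CFT.Local CFT.Global FermatAgent.GaloisBasic
open FermatAgent.LT FermatAgent.LT.Octa
open FermatAgent.LT.Period (GL3 refl3 IsEis IsFrobImage)

namespace GRep

variable (R : GRep)

/-- The square root of `-3` with positive imaginary part exists. -/
theorem exists_theta :
    ∃ θ : R.Kf, IsEis θ ∧ (Period.place R.Kf).embedding θ = Lift.thC := by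
  set θ : R.Kf := 2 * R.zeta3 + 1
  have hmul : (Period.place R.Kf).embedding θ * (Period.place R.Kf).embedding θ =
      Lift.thC * Lift.thC := by
    rw [Lift.thC_mul_self, ← map_mul, ← sq, R.isEis.sq, map_neg, map_ofNat]
  rcases mul_self_eq_mul_self_iff.1 hmul with h | h
  · exact ⟨θ, R.isEis, h⟩
  · exact ⟨-θ, ⟨by rw [neg_sq, R.isEis.sq], R.finrank_Kf⟩, by rw [map_neg, h, neg_neg]⟩

variable (T : Finset ℕ)

/-- The excluded primes. -/
def bad : Finset ℕ := R.badP ∪ T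

/-- The primes of bad reduction are bad. -/
lemma badP_subset_bad : R.badP ⊆ R.bad T := Finset.subset_union_left

lemma three_mem_bad : 3 ∈ R.bad T := R.badP_subset_bad T R.three_mem_badP

/-- The places over a set of primes are finitely many. -/
lemma finite_over_bad : {v : PK R.Kf | qOf v ∈ R.bad T}.Finite := by
  refine (((R.bad T).filter Nat.Prime).finite_toSet.biUnion fun q hq =>
    (Ideal.finite_factors (I := Ideal.span {(q : 𝓞 R.Kf)}) (by
      rw [Ne, Ideal.zero_eq_bot, Ideal.span_singleton_eq_bot]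
      exact Nat.cast_ne_zero.2 (Finset.mem_filter.1 hq).2.ne_zero))).subset fun v hv => ?_
  simp only [Set.mem_iUnion]
  refine ⟨qOf v, Finset.mem_coe.2 (Finset.mem_filter.2 ⟨hv, Fact.out⟩), Ideal.dvd_iff_le.2
    ((Ideal.span_singleton_le_iff_mem _).2 ?_)⟩
  exact ((isPoint_gOf v) _).mpr (by simpa using norm_emb_natCast_lt_one (q := qOf v) (gOf v))

/-- The bad places. -/
def badK : Finset (PK R.Kf) := (R.finite_over_bad T).toFinset

variable {q : ℕ} [hq : Fact q.Prime] {g : GQ} {v : PK R.Kf}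

/-- Bad places through a point. -/
lemma mem_badK_iff_of_point (hv : IsPoint v q g) : v ∈ R.badK T ↔ q ∈ R.bad T := by
  rw [badK, Set.Finite.mem_toFinset, Set.mem_ofPred_eq, (isPoint_gOf v).prime_eq hv]

/-- The prime lies in the ideal of a point. -/
lemma natCast_mem_of_point {F0 : IntermediateField ℚ Qbar} {P : PK F0}
    (hP : IsPoint P q g) : (q : 𝓞 F0) ∈ P.asIdeal :=
  (hP _).mpr (by simpa using norm_emb_natCast_lt_one (q := q) g)

section

omit hq

lemma mem_badK_iff_of_prime {p : ℕ} (hp : p.Prime) (hv : (p : 𝓞 R.Kf) ∈ v.asIdeal) :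
    v ∈ R.badK T ↔ p ∈ R.bad T := by
  have h := eq_of_natCast_mem (isPoint_gOf v) hp hv
  have : Fact p.Prime := ⟨hp⟩
  rw [R.mem_badK_iff_of_point T (isPoint_gOf v), h]

lemma mem_badK :
    v ∈ R.badK T ↔ ∃ p ∈ R.bad T, p.Prime ∧ (p : 𝓞 R.Kf) ∈ v.asIdeal := by
  refine ⟨fun h => ⟨qOf v, (R.mem_badK_iff_of_point T (isPoint_gOf v)).1 h, Fact.out,
    natCast_mem_of_point (isPoint_gOf v)⟩, ?_⟩
  rintro ⟨p, hp, hpp, hpv⟩
  exact (R.mem_badK_iff_of_prime T hpp hpv).2 hp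

/-- Off the bad places three is a unit. -/
lemma three_val (h : v ∉ R.badK T) : v.valuation R.Kf 3 = 1 :=
  (HeightOneSpectrum.valuation_eq_one_iff_notMem (v := v) (K := R.Kf)
    (r := (3 : 𝓞 R.Kf))).2 fun h3 =>
      h ((R.mem_badK T).2 ⟨3, R.three_mem_bad T, Nat.prime_three, by exact_mod_cast h3⟩)

/-- A fixed place off the bad places is unramified. -/
theorem unram_of_fixed {w : PK R.Lf} (hb : R.bK w ∉ R.badK T) (hfix : placeMap R.tau w = w)
    (x : R.Kf) : w.valuation R.Lf (algebraMap R.Kf R.Lf x) = (R.bK w).valuation R.Kf x := by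
  have : w.asIdeal.LiesOver (R.bK w).asIdeal := ⟨R.bK_under w⟩
  have hns := NonSplit.of_fixed (v := R.bK w) R.isTwist hfix (R.three_val T hb)
  rcases hns.inert_or_ramified with hi | hr
  · exact hi x
  have hv := R.isPoint_bK (isPoint_gOf w)
  exact absurd hr (R.not_cube_of_noInertia hv (R.noInertia_good (fun h => hb
    ((R.mem_badK_iff_of_point T hv).2 (R.badP_subset_bad T h))) R.Kf (gOf w)) (isPoint_gOf w))

end

/-- **The setting.** -/
def setup : LT2.Setup R.Kf R.Lf where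
  τ := R.tau
  twist := R.isTwist
  T := R.exists_infCycle.some
  v := Period.place R.Kf
  uniq := R.isEis.eq_place
  ζ := R.zeta3
  ζ_prim := R.zeta3_spec
  b := R.bK
  finite_fib := R.bK_fibre_finite
  b_tau w := by
    conv_rhs => rw [← (placeMap R.tau).apply_symm_apply w]
    exact (R.bK_tau _).symm
  b_eq := R.bK_under
  S := R.badK T
  three _ hv := R.three_val T hv
  unram _ hb hfix x := R.unram_of_fixed T hb hfix x

/-! ### Eigenvalues -/

/-- A Frobenius of `L` at a good point. -/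
lemma exists_frob_L {w : PK R.Lf} (hI : R.NoInertia q g R.Lf) (hw : IsPoint w q g) :
    ∃ σ ∈ R.Lf.fixingSubgroup, R.IsFrobAt q g σ w.asIdeal.absNorm := by
  obtain ⟨m, hm, d₀, -, hd₀, hfr, -⟩ := R.exists_unr q g R.Lf (R.le_Nf q8) hI
  rw [resCard_eq_absNorm hw] at hfr
  exact ⟨_, locHom_mem hd₀, hfr⟩

/-- The eigenvalue at a place of `L` without inertia in the image. -/
def eigL (w : PK R.Lf) : ℂ :=
  if h : ∀ g, R.NoInertia (qOf w) g R.Lf then (√(w.asIdeal.absNorm : ℝ) : ℂ) *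
    tC (R.e (R.exists_frob_L (h _) (isPoint_gOf w)).choose)
  else 0

/-- The eigenvalue at any point without inertia in the image. -/
theorem eigL_eq_of_noInertia {w : PK R.Lf} (hI : ∀ g, R.NoInertia q g R.Lf) (hw : IsPoint w q g)
    {σ : GQ} (hσ : σ ∈ R.Lf.fixingSubgroup) (hfr : R.IsFrobAt q g σ w.asIdeal.absNorm) :
    R.eigL w = (√(w.asIdeal.absNorm : ℝ) : ℂ) * tC (R.e σ) := by
  suffices key : ∀ (q' : ℕ) (_ : Fact q'.Prime) (g' : GQ), IsPoint w q' g' → ∀ σ' : GQ,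
      σ' ∈ R.Lf.fixingSubgroup → R.IsFrobAt q' g' σ' w.asIdeal.absNorm →
        tC (R.e σ') = tC (R.e σ) by
    have hb : ∀ g', R.NoInertia (qOf w) g' R.Lf := by
      obtain rfl := (isPoint_gOf w).prime_eq hw
      exact hI
    rw [eigL, dif_pos hb,
      key _ _ _ (isPoint_gOf w) _ (R.exists_frob_L (hb _) (isPoint_gOf w)).choose_spec.1
      (R.exists_frob_L (hb _) (isPoint_gOf w)).choose_spec.2]
  intro q' hq' g' hw' σ' hσ' hfr'
  obtain rfl : q' = q := hw.prime_eq hw'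
  obtain ⟨l, u, hu, rfl⟩ := hw'.exists_mul hw
  have h1 := R.isFrobAt_mul (w := u) ((R.isFrobAt_locHom_mul l).2 hfr')
  have h2 : u⁻¹ * σ' * u ∈ R.Lf.fixingSubgroup := mul_mem (mul_mem (inv_mem hu) hσ') hu
  rw [← R.e_eq_of_isFrobAt (R.le_Nf q8) (hI _) h2 hσ h1 hfr, map_mul,
    map_mul, map_inv, ← tC_conj (R.e σ') (R.e u)⁻¹, inv_inv]

/-- The eigenvalue at any good point. -/
theorem eigL_eq {w : PK R.Lf} (hbad : q ∉ R.badP) (hw : IsPoint w q g)
    {σ : GQ} (hσ : σ ∈ R.Lf.fixingSubgroup) (hfr : R.IsFrobAt q g σ w.asIdeal.absNorm) :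
    R.eigL w = (√(w.asIdeal.absNorm : ℝ) : ℂ) * tC (R.e σ) :=
  R.eigL_eq_of_noInertia (R.noInertia_good hbad R.Lf) hw hσ hfr

omit hq

omit hq in
lemma eigL_tau (w : PK R.Lf) : R.eigL (placeMap R.tau w) = R.eigL w := by
  have hw := isPoint_gOf w
  have hw' : IsPoint (placeMap R.tau w) (qOf w) (gOf w * R.tK⁻¹) := by
    have e := R.placeMap_tau (q := qOf w) (gOf w)
    rw [← hw.eq_primeAt] at e
    rw [e]
    exact isPoint_primeAt
  have hqq : qOf (placeMap R.tau w) = qOf w := hw'.prime_eq (isPoint_gOf (placeMap R.tau w))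
  by_cases h : ∀ g, R.NoInertia (qOf w) g R.Lf
  swap
  · have key : ∀ (a b : ℕ) (_ : Fact a.Prime) (_ : Fact b.Prime), a = b →
        (∀ g, R.NoInertia a g R.Lf) → ∀ g, R.NoInertia b g R.Lf := by
      rintro a b _ _ rfl hh
      exact hh
    rw [eigL, dif_neg fun hh => h (key _ _ _ _ hqq hh), eigL, dif_neg h]
  have hN : (placeMap R.tau w).asIdeal.absNorm = w.asIdeal.absNorm := by
    rw [← resCard_eq_absNorm hw', ← resCard_eq_absNorm hw]
    have key : ∀ (F F' : IntermediateField ℚ_[qOf w] (PadicAlgCl (qOf w))), F = F' →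
        resCard F = resCard F' := fun _ _ e => e ▸ rfl
    exact key _ _ (locField_mul_eq (R.tK⁻¹))
  obtain ⟨σ, hσ, hfr⟩ := R.exists_frob_L (h _) hw
  have hσ' : R.tK⁻¹⁻¹ * σ * R.tK⁻¹ ∈ R.Lf.fixingSubgroup := by
    rw [R.mem_Lf, map_mul, map_mul, map_inv, map_inv, inv_inv]
    exact q8_conj _ _ (R.mem_Lf.1 hσ)
  rw [R.eigL_eq_of_noInertia h hw' hσ' (hN.symm ▸ R.isFrobAt_mul hfr),
    R.eigL_eq_of_noInertia h hw hσ hfr, hN, map_mul,
    map_mul, map_inv, map_inv, inv_inv, tC_conj]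

/-- The eigenvalue below. -/
def eigK (v : PK R.Kf) : ℂ := R.eigL (R.exists_bK v).choose

/-- Eigenvalues above are those of the place below. -/
lemma eigL_eq_eigK (w : PK R.Lf) : R.eigL w = R.eigK (R.bK w) :=
  R.eq_of_bK_eq R.eigL R.eigL_tau (R.exists_bK (R.bK w)).choose_spec

/-- The representation on the finite level. -/
def eN : (R.Nf ≃ₐ[ℚ] R.Nf) →* GL3 := R.exists_eN.choose

/-- The descended surjection. -/
lemma eN_eq (σ : GQ) : R.eN (AlgEquiv.restrictNormalHom R.Nf σ) = R.e σ :=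
  R.exists_eN.choose_spec σ

/-- The descended map is onto. -/
lemma eN_surj : Function.Surjective R.eN := fun g => by
  obtain ⟨σ, hσ⟩ := R.surj g
  exact ⟨AlgEquiv.restrictNormalHom R.Nf σ, (R.eN_eq σ).trans hσ⟩

/-- The chosen value is a Frobenius image. -/
lemma isFrobImage_gP {p : ℕ} (hp : p.Prime) : IsFrobImage R.Nf R.eN p (R.gP p) := by
  obtain ⟨A, σ, hA, hσ, he⟩ := (R.exists_gP p).choose_spec hp
  exact ⟨A, σ, hA, hσ, (R.eN_eq σ).trans he⟩

variable {p : ℕ}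

/-- Every Frobenius at a good prime is in the class. -/
lemma e_frob_conj_gP (hp : p.Prime) (hbad : p ∉ R.badP) {A : ValuationSubring Qbar}
    (hA : A.LiesOverPrime p) {σ : GQ} (hσ : A.IsFrobeniusAt σ p) :
    ∃ t : GL3, R.e σ = t * R.gP p * t⁻¹ := by
  have : Fact p.Prime := ⟨hp⟩
  obtain ⟨g, rfl⟩ := exists_eq_plA hA
  obtain ⟨σ', t, hfr, he⟩ := R.exists_conj_gP (q := p) g
  refine ⟨t, ?_⟩
  rw [← he]
  exact R.e_eq_of_isFrobAt (F0 := (⊥ : IntermediateField ℚ Qbar)) bot_le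
    (R.noInertia_good hbad ⊥ g) (by rw [IntermediateField.fixingSubgroup_bot]; trivial)
    (by rw [IntermediateField.fixingSubgroup_bot]; trivial) (R.isFrobAt_of_isFrobeniusAt hσ) hfr

/-- The places over a good prime of quaternionic class. -/
theorem good_aux [Fact p.Prime] (hbad : p ∉ R.badP) (hv : (p : 𝓞 R.Kf) ∈ v.asIdeal)
    (h : p % 3 = 2 ∨ IsQ8 (R.gP p)) {w : PK R.Lf} (hw : R.bK w = v) :
    placeMap R.tau w ≠ w ∧ w.asIdeal.absNorm = v.asIdeal.absNorm ∧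
      ∃ (g : GQ) (σ : GQ) (t : GL3), IsPoint w p g ∧ σ ∈ R.Lf.fixingSubgroup ∧
        R.IsFrobAt p g σ w.asIdeal.absNorm ∧
        ((p % 3 = 1 ∧ w.asIdeal.absNorm = p ∧ R.e σ = t * R.gP p * t⁻¹) ∨
         (p % 3 = 2 ∧ w.asIdeal.absNorm = p ^ 2 ∧ R.e σ = t * (R.gP p * R.gP p) * t⁻¹)) := by
  suffices key : ∀ (q : ℕ) (_ : Fact q.Prime) (g : GQ), IsPoint w q g → _ from
    key _ _ _ (isPoint_gOf w)
  intro q hq g hwp
  subst hw
  have hvp := R.isPoint_bK hwp
  obtain rfl : q = p := eq_of_natCast_mem hvp Fact.out hv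
  obtain ⟨σ, hσ, hfr, t, hcase⟩ := R.exists_frob_K hbad hvp
  have h8 : IsQ8 (R.e σ) := by
    rcases hcase with ⟨h1, -, he⟩ | ⟨h2, -, he⟩
    · rw [he]
      exact q8_conj _ _ (h.resolve_left (by omega))
    · rw [he]
      exact q8_conj _ _ (isQ8_sq _ (by
        rw [R.det_gP hq.out hbad, ← ZMod.natCast_mod q 3, h2]; norm_num))
  obtain ⟨hne, hN⟩ := R.split_of_q8 hbad hvp hσ hfr h8
  rw [← hwp.eq_primeAt] at hne hN
  refine ⟨hne, hN, g, σ, t, hwp, R.mem_Lf.2 h8, hN.symm ▸ hfr, ?_⟩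
  rw [hN]
  exact hcase

/-- The eigenvalue below a good prime of quaternionic class. -/
theorem eigK_good [Fact p.Prime] (hbad : p ∉ R.badP) (hv : (p : 𝓞 R.Kf) ∈ v.asIdeal)
    (h : p % 3 = 2 ∨ IsQ8 (R.gP p)) :
    (p % 3 = 1 ∧ v.asIdeal.absNorm = p ∧ R.eigK v = (√(p : ℝ) : ℂ) * tC (R.gP p)) ∨
      (p % 3 = 2 ∧ v.asIdeal.absNorm = p ^ 2 ∧
        R.eigK v = (p : ℂ) * tC (R.gP p * R.gP p)) := by
  obtain ⟨w, rfl⟩ := R.exists_bK v
  obtain ⟨-, hN', g, σ, t, hwp, hσ, hfr, hcase⟩ := R.good_aux hbad hv h rfl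
  rw [← R.eigL_eq_eigK, R.eigL_eq hbad hwp hσ hfr, ← hN']
  rcases hcase with ⟨h1, hN, he⟩ | ⟨h2, hN, he⟩
  · exact Or.inl ⟨h1, hN, by rw [hN, he, tC_conj]⟩
  · refine Or.inr ⟨h2, hN, ?_⟩
    rw [hN, he, tC_conj, Nat.cast_pow, Real.sqrt_sq (Nat.cast_nonneg _)]
    norm_num

lemma det_gP_inert (hp : p.Prime) (hbad : p ∉ R.badP) (h2 : p % 3 = 2) :
    (R.gP p).val.det = 2 := by
  rw [R.det_gP hp hbad, ← ZMod.natCast_mod p 3, h2]; norm_num

/-- The places over a good prime of quaternionic class are good and split. -/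
theorem good (hp : p.Prime) (hbad : p ∉ R.bad T) (hv : (p : 𝓞 R.Kf) ∈ v.asIdeal) :
    v ∉ (R.setup T).S ∧ (p % 3 = 2 ∨ IsQ8 (R.gP p) → (R.setup T).IsSplit v) := by
  have : Fact p.Prime := ⟨hp⟩
  refine ⟨fun h => hbad ((R.mem_badK_iff_of_prime T hp hv).1 h), fun h w hw => ?_⟩
  exact (R.good_aux (fun h' => hbad (R.badP_subset_bad T h')) hv h hw).1

/-- At split primes of central class. -/
theorem hsplit (hp : p.Prime) (hbad : p ∉ R.badP) (h1 : p % 3 = 1)
    (hv : (p : 𝓞 R.Kf) ∈ v.asIdeal) :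
    (R.gP p = 1 → R.eigK v = (√(p : ℝ) : ℂ) * 2) ∧
      (R.gP p = -1 → R.eigK v = (√(p : ℝ) : ℂ) * -2) := by
  have : Fact p.Prime := ⟨hp⟩
  have key : IsQ8 (R.gP p) → R.eigK v = (√(p : ℝ) : ℂ) * tC (R.gP p) := fun h =>
    ((R.eigK_good hbad hv (Or.inr h)).resolve_right fun h2 => by omega).2.2
  refine ⟨fun e => ?_, fun e => ?_⟩
  · rw [key (by rw [e]; exact q8.one_mem), e, tC_one]
  · rw [key (by rw [e]; exact c4_le_q8 c4_neg_one.1), e, tC_neg_one]

/-- At inert primes. -/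
theorem hinert (hp : p.Prime) (hbad : p ∉ R.badP) (h2 : p % 3 = 2)
    (hv : (p : 𝓞 R.Kf) ∈ v.asIdeal) :
    (IsConj refl3 (R.gP p) → R.eigK v = (p : ℂ) * 2) ∧
      (¬IsConj refl3 (R.gP p) → R.eigK v = 0) := by
  have : Fact p.Prime := ⟨hp⟩
  have key : R.eigK v = (p : ℂ) * tC (R.gP p * R.gP p) :=
    ((R.eigK_good hbad hv (Or.inl h2)).resolve_left fun h1 => by omega).2.2
  obtain ⟨k1, k2⟩ := tC_sq_inert _ (R.det_gP_inert hp hbad h2)
  refine ⟨fun hc => by rw [key, k1 hc, tC_one], fun hc => ?_⟩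
  rw [key, tC, k2 hc]
  simp

/-- The eigenvalue at a prime of central Frobenius, and its place is good and split. -/
theorem central_frob (hp : p.Prime) (hbad : p ∉ R.bad T) {A : ValuationSubring Qbar}
    (hA : A.LiesOverPrime p) {σ : GQ} (hσ : A.IsFrobeniusAt σ p) (hc : R.e σ = 1 ∨ R.e σ = -1)
    (hv : (p : 𝓞 R.Kf) ∈ v.asIdeal) :
    p % 3 = 1 ∧ v ∉ (R.setup T).S ∧ (R.setup T).IsSplit v ∧
      (R.e σ = 1 → R.eigK v = (√(p : ℝ) : ℂ) * 2) ∧
      (R.e σ = -1 → R.eigK v = (√(p : ℝ) : ℂ) * -2) := by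
  have hbP : p ∉ R.badP := fun h => hbad (R.badP_subset_bad T h)
  obtain ⟨t, ht⟩ := R.e_frob_conj_gP hp hbP hA hσ
  have hg : R.gP p = R.e σ := by
    have e : R.gP p = t⁻¹ * R.e σ * t := by rw [ht]; group
    rcases hc with h | h <;> rw [e, h] <;> simp
  have hd : (R.gP p).val.det = 1 := by rw [hg]; rcases hc with h | h <;> rw [h] <;> decide
  have h8 : IsQ8 (R.gP p) := by
    rw [hg]
    rcases hc with h | h <;> rw [h]
    · exact q8.one_mem
    · exact c4_le_q8 c4_neg_one.1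
  have h1 : p % 3 = 1 := by
    have h3 : p % 3 < 3 := Nat.mod_lt _ (by norm_num)
    rw [R.det_gP hp hbP, ← ZMod.natCast_mod p 3] at hd
    interval_cases p % 3 <;> revert hd <;> decide
  obtain ⟨hS, hsp⟩ := R.good T hp hbad hv
  exact ⟨h1, hS, hsp (Or.inr h8), fun e => (R.hsplit hp hbP h1 hv).1 (hg.trans e),
    fun e => (R.hsplit hp hbP h1 hv).2 (hg.trans e)⟩

/-- **The auxiliary split places.** -/
theorem exists_aux (m : ℕ) (hm : m ≠ 0) (avoid : Finset ℕ) :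
    ∃ p : ℕ, p.Prime ∧ p % 3 = 2 ∧ p ∉ avoid ∧ p ∉ R.bad T ∧ m ∣ p + 1 ∧
      ∃ v : PK R.Kf, (p : 𝓞 R.Kf) ∈ v.asIdeal ∧ v.asIdeal = Ideal.span {-(p : 𝓞 R.Kf)} ∧
        v ∉ (R.setup T).S ∧ (R.setup T).IsSplit v ∧ v.asIdeal.absNorm = p ^ 2 ∧ R.eigK v = 0 := by
  obtain ⟨p, hp, h2, hav, hpm, -, h8⟩ := exists_aux_prime R m hm (avoid ∪ R.bad T)
  rw [Finset.mem_union, not_or] at hav
  have : Fact p.Prime := ⟨hp⟩
  have hbP : p ∉ R.badP := fun h => hav.2 (R.badP_subset_bad T h)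
  set v := primeAt R.Kf p 1
  have hv : (p : 𝓞 R.Kf) ∈ v.asIdeal := natCast_mem_of_point isPoint_primeAt
  obtain ⟨hS, hsp⟩ := R.good T hp hav.2 hv
  obtain ⟨-, hN, hK⟩ := (R.eigK_good hbP hv (Or.inl h2)).resolve_left fun h1 => by omega
  refine ⟨p, hp, h2, hav.1, hav.2, ?_, v, hv, ?_, hS, hsp (Or.inl h2), hN, ?_⟩
  · rw [← ZMod.natCast_eq_zero_iff]
    push_cast
    rw [hpm, neg_add_cancel]
  · have hle : Ideal.span {-(p : 𝓞 R.Kf)} ≤ v.asIdeal := by
      rw [Ideal.span_singleton_neg, Ideal.span_singleton_le_iff_mem]; exact hv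
    obtain ⟨J, hJ⟩ := Ideal.dvd_iff_le.2 hle
    have hn := congrArg Ideal.absNorm hJ
    rw [map_mul, hN, Ideal.span_singleton_neg, Ideal.absNorm_span_singleton,
      show (p : 𝓞 R.Kf) = algebraMap ℤ (𝓞 R.Kf) p by simp, Algebra.norm_algebraMap,
      NumberField.RingOfIntegers.rank, R.finrank_Kf, Int.natAbs_pow, Int.natAbs_natCast] at hn
    have hJ1 : J.absNorm = 1 :=
      (Nat.eq_of_mul_eq_mul_left (pow_pos hp.pos 2) (hn.symm.trans (mul_one _).symm))
    rw [hJ, Ideal.absNorm_eq_one_iff.1 hJ1, Ideal.mul_top]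
  · obtain ⟨A, σ, hA, hσ, he⟩ := (R.exists_gP p).choose_spec hp
    have ho : orderOf (R.gP p) = 8 := by
      rw [show R.gP p = R.e σ from he.symm]
      exact h8 A hA σ hσ
    refine (R.hinert hp hbP h2 hv).2 fun hc => ?_
    obtain ⟨c, hc'⟩ := isConj_iff.1 hc
    rw [← hc', ← MulAut.conj_apply, MulEquiv.orderOf_eq] at ho
    have h2' : orderOf refl3 ∣ 2 := orderOf_dvd_of_pow_eq_one (by decide)
    rw [ho] at h2'
    norm_num at h2'

end GRep

end FermatAgent.LT2.Fields
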