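import Fermat.Agent.LT2.Fields.Data
import Fermat.Agent.LT2.Fields.ThetaW
import Fermat.Agent.LT2.Theta.Setup
import Fermat.Agent.GaloisBasic.CharpolyDensity

/-!
# The theta datum of a surjection

Nothing is assumed on inertia at three.
-/

set_option autoImplicit false
set_option maxRecDepth 20000

noncomputable section

open scoped Classical NumberField Pointwise
open IsDedekindDomain

namespace FermatAgent.LT2.Fields

open CFT CFT.Coh CFT.Local CFT.Global FermatAgent.GaloisBasic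
open FermatAgent.LT FermatAgent.LT.Octa
open FermatAgent.LT.Period (GL3 refl3)

/-- An odd power of `I` is not its inverse. -/
lemma I_pow_val_ne {c : ZMod 4} (hc : c + c ≠ 0) :
    Complex.I ^ c.val ≠ Complex.I ^ (-c).val := by
  intro h
  have h1 : ∀ z : ZMod 4, z + z ≠ 0 → z.val = 1 ∧ (-z).val = 3 ∨ z.val = 3 ∧ (-z).val = 1 := by
    decide
  rcases h1 c hc with ⟨a, b⟩ | ⟨a, b⟩ <;> rw [a, b] at h <;>
    (have := congrArg Complex.im h; norm_num [pow_succ] at this)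

namespace GRep

variable (R : GRep)

variable (T : Finset ℕ)

/-- The special places. -/
def badL : Finset (PK R.Lf) :=
  (R.badK T).biUnion fun v => (R.bK_fibre_finite v).toFinset

/-- Bad places above lie over bad places. -/
lemma mem_badL {w : PK R.Lf} : w ∈ R.badL T ↔ R.bK w ∈ R.badK T := by
  simp [badL]

lemma qOf_notMem {w : PK R.Lf} (hv : w ∉ R.badL T) : qOf w ∉ R.badP := fun h =>
  hv ((R.mem_badL T).2 ((R.mem_badK_iff_of_point T (R.isPoint_bK (isPoint_gOf w))).2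
    (R.badP_subset_bad T h)))

/-- Off the special places there is no inertia on `G_L`. -/
lemma noInertia_badL {w : PK R.Lf} (hv : w ∉ R.badL T) (g : GQ) :
    R.NoInertia (qOf w) g R.Lf :=
  R.noInertia_good (R.qOf_notMem T hv) R.Lf g

/-- At every place the component is trivial near one. -/
theorem thetaW_near (w : PK R.Lf) :
    ∃ k : ℤ, ∀ x : R.Mf, x - 1 ∈ (LT.Theta.Place.locQuad w R.Mf).lat k → R.thetaW w x = 1 := by
  have hw := isPoint_gOf w
  obtain ⟨ε₁, hε₁, h₁⟩ := R.exists_charC_near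
    (isPoint_primeAt (K := R.Mf) (q := qOf w) (g := gOf w))
  obtain ⟨ε₂, hε₂, h₂⟩ := R.exists_charC_near
    (isPoint_primeAt (K := R.Mf) (q := qOf w) (g := gOf w * R.jM))
  set π : R.Lf := LT.Theta.Place.unif w
  have hπ0 : π ≠ 0 := LT.Theta.Place.unif_ne_zero w
  set r := ‖emb (qOf w) (gOf w) (π : Qbar)‖
  have hr : r < 1 := by
    show ‖emb (qOf w) (gOf w) (π : Qbar)‖ < 1
    rw [← R.valuation_lt_one_iff_emb hw, LT.Theta.Place.v_unif, ← WithZero.exp_zero,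
      WithZero.exp_lt_exp]
    norm_num
  obtain ⟨k, hk⟩ := exists_pow_lt_of_lt_one (lt_min hε₁ hε₂) hr
  refine ⟨(k : ℤ), fun x hx => ?_⟩
  have hy : π ^ (-(k : ℤ)) • (x - 1) ∈ LT.Theta.Quad.lattice R.Lf R.Mf w := hx
  set y := π ^ (-(k : ℤ)) • (x - 1)
  obtain ⟨hy1, hy2⟩ := (R.mem_lattice_iff hw y).1 hy
  have hxy : x - 1 = π ^ k • y := by
    rw [← zpow_natCast π k, smul_smul, ← zpow_add₀ hπ0, add_neg_cancel, zpow_zero, one_smul]
  have hjπ : R.jM (π : Qbar) = π :=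
    (IntermediateField.mem_fixingSubgroup_iff _ _).1 R.jM_mem _ π.2
  have hle : ∀ g' : GQ, ‖emb (qOf w) g' (π : Qbar)‖ = r → ‖emb (qOf w) g' (y : Qbar)‖ ≤ 1 →
      ‖emb (qOf w) g' (x : Qbar) - 1‖ ≤ r ^ k := fun g' hg hle => by
    have e := congrArg (fun z : R.Mf => emb (qOf w) g' (z : Qbar)) hxy
    simp only [Algebra.smul_def, map_pow, AddSubgroupClass.coe_sub, OneMemClass.coe_one,
      IntermediateField.coe_mul, SubmonoidClass.coe_pow, coe_algebraMap_LM, map_sub, map_one,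
      map_mul] at e
    rw [e, norm_mul, norm_pow, hg]
    exact mul_le_of_le_one_right (pow_nonneg (norm_nonneg _) k) hle
  rw [thetaW_apply]
  refine Finset.prod_eq_one fun P hP => ?_
  rw [above, Finset.mem_insert, Finset.mem_singleton] at hP
  rcases hP with rfl | rfl
  · exact h₁ x ((hle _ rfl hy1).trans_lt (hk.trans_le (min_le_left _ _)))
  · refine h₂ x ((hle _ ?_ hy2).trans_lt (hk.trans_le (min_le_right _ _)))
    rw [emb_mul, hjπ]

/-- A Frobenius at any point of a place, transported. -/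
lemma e_frob_conj {w : PK R.Lf} {q : ℕ} [Fact q.Prime] {g : GQ} (hbad : q ∉ R.badP)
    (hw : IsPoint w q g) {σ : GQ} (hσ : σ ∈ R.Lf.fixingSubgroup)
    (hfr : R.IsFrobAt q g σ w.asIdeal.absNorm) :
    ∀ (q₀ : ℕ) (_ : Fact q₀.Prime) (g₀ : GQ), IsPoint w q₀ g₀ → ∀ σ₀ ∈ R.Lf.fixingSubgroup,
      R.IsFrobAt q₀ g₀ σ₀ w.asIdeal.absNorm → ∃ t : GL3, IsQ8 t ∧ R.e σ₀ = t * R.e σ * t⁻¹ := by
  intro q₀ hq₀ g₀ hw₀ σ₀ hσ₀ hfr₀
  obtain rfl : q₀ = q := hw.prime_eq hw₀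
  obtain ⟨l, u, hu, rfl⟩ := hw₀.exists_mul hw
  refine ⟨R.e u, R.mem_Lf.1 hu, ?_⟩
  have h := R.e_eq_of_isFrobAt (R.le_Nf q8) (R.noInertia_good hbad R.Lf _)
    (mul_mem (mul_mem (inv_mem hu) hσ₀) hu) hσ (R.isFrobAt_mul ((R.isFrobAt_locHom_mul l).2 hfr₀))
    hfr
  rw [← h, map_mul, map_mul, map_inv]
  group

/-- The component is not trivial on the elements of norm one at some place. -/
theorem exists_twist :
    ∃ w : PK R.Lf, ∃ h : R.Mf, Algebra.norm R.Lf h = 1 ∧ R.thetaW w h ≠ 1 := by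
  obtain ⟨σ₀, hσ₀⟩ := R.surj gI
  obtain ⟨q, A, σ, j, k, hq, hbad, hA, hσ, -, hj, hk⟩ :=
    exists_frobenius_pow_congr R.Nf σ₀ R.badP
  have : Fact q.Prime := ⟨hq⟩
  have e1 : R.e σ = gI ^ k := by
    rw [show σ = σ₀ ^ k * ((σ₀ ^ k)⁻¹ * σ) by group, map_mul, map_pow, R.e_eq_of_mem_Nf hk,
      mul_one, hσ₀]
  have e2 : gI = R.e σ ^ j := by
    conv_lhs => rw [← hσ₀, show σ₀ = σ ^ j * ((σ ^ j)⁻¹ * σ₀) by group, map_mul, map_pow,
      R.e_eq_of_mem_Nf hj, mul_one]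
  have hgood : IsC4 (R.e σ) ∧ R.e σ * R.e σ ≠ 1 := by
    have hk4 : R.e σ = gI ^ (k % 4) := by
      rw [e1]; exact pow_eq_pow_mod k (show gI ^ 4 = 1 by decide +kernel)
    refine ⟨by rw [e1]; exact c4.pow_mem (show gI ∈ c4 from show IsC4 gI by decide +kernel) k,
      fun h2 => ?_⟩
    have : gI * gI = 1 := by
      conv_lhs => rw [e2]
      rw [← pow_add, ← two_mul, pow_mul, pow_two, h2, one_pow]
    exact absurd this (by decide +kernel)
  obtain ⟨g, rfl⟩ := exists_eq_plA hA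
  have hfr := R.isFrobAt_of_isFrobeniusAt hσ
  have hdet : (R.e σ).val.det = 1 := hgood.1.1
  have hσK : σ ∈ R.Kf.fixingSubgroup := R.mem_Kf.2 hdet
  have hq1 : q % 3 = 1 := by
    have hd := R.det_frob (fun h3 : q = 3 => hbad (h3 ▸ R.three_mem_badP)) hfr
    rw [hdet, ← ZMod.natCast_mod q 3] at hd
    have h3 : q % 3 < 3 := Nat.mod_lt _ (by norm_num)
    interval_cases q % 3 <;> revert hd <;> decide
  have hv : IsPoint (primeAt R.Kf q g) q g := isPoint_primeAt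
  obtain ⟨σ', -, -, t, hcase⟩ := R.exists_frob_K hbad hv
  have hN : (primeAt R.Kf q g).asIdeal.absNorm = q := by
    rcases hcase with ⟨-, h, -⟩ | ⟨h2, -, -⟩
    · exact h
    · omega
  have h8 : IsQ8 (R.e σ) := c4_le_q8 hgood.1
  obtain ⟨-, hNw⟩ := R.split_of_q8 hbad hv hσK (hN.symm ▸ hfr) h8
  set w := primeAt R.Lf q g
  have hw : IsPoint w q g := isPoint_primeAt
  have hfrw : R.IsFrobAt q g σ w.asIdeal.absNorm := by rw [hNw, hN]; exact hfr
  have hσL : σ ∈ R.Lf.fixingSubgroup := R.mem_Lf.2 h8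
  have hbw : qOf w ∉ R.badP := by rwa [hw.prime_eq (isPoint_gOf w)]
  have hconj := R.e_frob_conj hbad hw hσL hfrw _ _ _ (isPoint_gOf w)
  rcases R.split_or_inert (isPoint_gOf w) (R.noInertia_good hbw R.Lf) with h | h
  · obtain hin | ⟨ϖ, hϖ, -⟩ := LT.Theta.Place.inert_or_split h.unr
    · exact absurd (fun y hy hy' => LT.Theta.Place.mem_lat_one_iff.1 (hin y hy hy')) h.not_inert
    refine ⟨w, ϖ / LT.Theta.Quad.conj R.Lf R.Mf ϖ, ?_, ?_⟩
    · have hne : Algebra.norm R.Lf ϖ ≠ 0 := Algebra.norm_ne_zero_iff.2 hϖ.ne_zero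
      have hc0 : LT.Theta.Quad.conj R.Lf R.Mf ϖ ≠ 0 :=
        (map_ne_zero_iff _ (LT.Theta.Quad.conj R.Lf R.Mf).injective).2 hϖ.ne_zero
      have hcN : Algebra.norm R.Lf (LT.Theta.Quad.conj R.Lf R.Mf ϖ) = Algebra.norm R.Lf ϖ := by
        refine (algebraMap R.Lf R.Mf).injective ?_
        rw [LT.Theta.Quad.norm_spec, LT.Theta.Quad.norm_spec, LT.Theta.Quad.conj_conj, mul_comm]
      refine mul_right_cancel₀ hne ?_
      conv_lhs => rw [← hcN, ← map_mul, div_mul_cancel₀ _ hc0]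
      rw [one_mul]
    intro hone
    obtain ⟨σ₁, hσ₁, hfr₁, c1, c2⟩ := h.frob
    have hval := R.split_values_of_mem h hϖ.ne_zero hϖ.mem hϖ.v_N c1 c2
    obtain ⟨t, -, ht⟩ :=
      hconj σ₁ (IntermediateField.fixingSubgroup_antitone R.Lf_le_Mf hσ₁) hfr₁
    have hc : chi4 (R.e σ₁) + chi4 (R.e σ₁) ≠ 0 := by
      refine (show ∀ y : GL3, IsC4 y → y * y ≠ 1 → chi4 y + chi4 y ≠ 0 by
        rw [forall_gl3]; decide +kernel) _
        (R.mem_Mf.1 hσ₁) fun h2 => hgood.2 ?_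
      rw [ht] at h2
      have h3 : t * (R.e σ * R.e σ) * t⁻¹ = 1 := by rw [← h2]; group
      rwa [conj_eq_one_iff] at h3
    have hc0 : LT.Theta.Quad.conj R.Lf R.Mf ϖ ≠ 0 :=
      (map_ne_zero_iff _ (LT.Theta.Quad.conj R.Lf R.Mf).injective).2 hϖ.ne_zero
    have he : R.thetaW w ϖ = R.thetaW w (LT.Theta.Quad.conj R.Lf R.Mf ϖ) := by
      conv_lhs => rw [← div_mul_cancel₀ ϖ hc0, map_mul, hone, one_mul]
    rcases hval with ⟨u1, u2⟩ | ⟨u1, u2⟩ <;> rw [u1, u2] at he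
    exacts [I_pow_val_ne hc he, I_pow_val_ne hc he.symm]
  · obtain ⟨σ₁, hσ₁, hnc, hfr₁⟩ := h.frob
    obtain ⟨t, htq, ht⟩ := hconj σ₁ hσ₁ hfr₁
    exact absurd (by rw [ht]; exact c4_conj_q8 _ _ hgood.1 htq) hnc

/-- The theta datum. -/
def thetaDatum : LT2.Theta.ThetaDatum R.Lf R.Mf where
  S := R.badL T
  θ := R.thetaW
  unr _ hv := R.isUnr (R.noInertia_badL T hv)
  θ_unr _ hv _ hx hN := R.thetaW_unr (R.noInertia_badL T hv) hx hN
  θ_cont w _ := R.thetaW_near w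
  norm_θ w x hx := by
    rw [thetaW_apply, norm_prod]
    exact Finset.prod_eq_one fun P _ => norm_charC R.chi P hx
  prod_θ x hx := R.prod_thetaW hx
  θ_inert _ hv hi := R.thetaW_inert (R.noInertia_badL T hv) hi
  θ_split _ hv hni := R.thetaW_split (R.noInertia_badL T hv) hni
  twist := R.exists_twist

/-- Without inertia on `G_L` the Hecke value at an inert place is zero. -/
theorem eigL_inert {w : PK R.Lf} (hI : ∀ g, R.NoInertia (qOf w) g R.Lf)
    (hi : LT.Theta.Place.IsInert R.Lf R.Mf w) : R.eigL w = 0 := by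
  rcases R.split_or_inert (isPoint_gOf w) hI with h | h
  · exact absurd hi h.not_inert
  · obtain ⟨σ, hσ, hnc, hfr⟩ := h.frob
    rw [R.eigL_eq_of_noInertia hI (isPoint_gOf w) hσ hfr, tC_eq_zero (R.mem_Lf.1 hσ) hnc,
      mul_zero]

/-- Without inertia on `G_L` the Hecke value at a split place. -/
theorem eigL_split {w : PK R.Lf} (hI : ∀ g, R.NoInertia (qOf w) g R.Lf) {ϖ : R.Mf}
    (hϖ : LT.Theta.LocQuad.IsSplitPrime (LT.Theta.Place.locQuad w R.Mf) ϖ) :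
    (√(LT.Theta.Place.qv w : ℝ) : ℂ) *
      (R.thetaW w ϖ + R.thetaW w (LT.Theta.Quad.conj R.Lf R.Mf ϖ)) = R.eigL w := by
  rcases R.split_or_inert (isPoint_gOf w) hI with h | h
  · obtain ⟨σ, hσ, hfr, c1, c2⟩ := h.frob
    rw [R.eigL_eq_of_noInertia hI (isPoint_gOf w)
      (IntermediateField.fixingSubgroup_antitone R.Lf_le_Mf hσ) hfr,
      tC_eq (R.mem_Mf.1 hσ) (c4_le_q8 (R.mem_Mf.1 hσ))]
    rcases R.split_values_of_mem h hϖ.ne_zero hϖ.mem hϖ.v_N c1 c2 with ⟨u1, u2⟩ | ⟨u1, u2⟩ <;>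
      rw [u1, u2] <;> congr 1
    rw [add_comm]
  · exfalso
    have hmem : ϖ ∈ (LT.Theta.Place.locQuad w R.Mf).lat 1 :=
      LT.Theta.Place.mem_lat_one_iff.2 (h.inert ϖ hϖ.mem (by
      show w.valuation R.Lf (Algebra.norm R.Lf ϖ) < 1
      rw [show w.valuation R.Lf (Algebra.norm R.Lf ϖ) = WithZero.exp (-1 : ℤ) from hϖ.v_N,
        ← WithZero.exp_zero, WithZero.exp_lt_exp]
      norm_num))
    have hN := (LT.Theta.Place.locQuad w R.Mf).v_N_le hmem
    rw [show (LT.Theta.Place.locQuad w R.Mf).v ((LT.Theta.Place.locQuad w R.Mf).N ϖ) =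
      WithZero.exp (-1 : ℤ) from hϖ.v_N, WithZero.exp_le_exp] at hN
    omega

end GRep

end FermatAgent.LT2.Fields
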