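import Fermat.Agent.LT2.Fields.Good
import Fermat.Agent.LT.Octa.Char

/-!
# The character of order four and its components

Nothing is assumed on inertia at three.
-/

set_option autoImplicit false
set_option maxRecDepth 20000

noncomputable section

open scoped Classical NumberField Pointwise
open IsDedekindDomain

namespace FermatAgent.LT2.Fields

open CFT CFT.Coh CFT.Local CFT.Global FermatAgent.GaloisBasic
open FermatAgent.LT FermatAgent.LT.Octa
open FermatAgent.LT.Period (GL3 refl3)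

namespace GRep

variable (R : GRep)

/-- Two elements outside the cyclic part differ by one inside. -/
lemma mul_c4_mem {σ τ : GQ} (hσ : σ ∈ R.Lf.fixingSubgroup) (hσM : ¬IsC4 (R.e σ))
    (hτ : τ ∈ R.Lf.fixingSubgroup) (hτM : ¬IsC4 (R.e τ)) : σ⁻¹ * τ ∈ R.Mf.fixingSubgroup := by
  rw [R.mem_Mf, map_mul, map_inv]
  exact q8_diff_mem_c4 _ _ (R.mem_Lf.1 hσ) (R.mem_Lf.1 hτ) hσM hτM

/-- The character of order four. -/
def chi : CycChar LQ R.Mf.fixingSubgroup 4 where
  toFun σ := chi4 (R.e σ)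
  map_mul' σ hσ τ hτ := by rw [map_mul]; exact chi4_mul _ _ (R.mem_Mf.1 hσ) (R.mem_Mf.1 hτ)
  const' := ⟨R.Nf.fixingSubgroup, fixingSubgroup_mem_galLevels R.Nf, fun σ _ s hs => by
    show chi4 (R.e (σ * s)) = chi4 (R.e σ)
    rw [map_mul, R.e_eq_of_mem_Nf hs.2, mul_one]⟩

lemma chi_apply (σ : GQ) : R.chi σ = chi4 (R.e σ) := rfl

variable {q : ℕ} [hq : Fact q.Prime] {g : GQ}

/-- Absence of inertia on the sextic field gives it on the field above. -/
lemma noInertia_Mf (hI : ∀ g, R.NoInertia q g R.Lf) : R.NoInertia q g R.Mf := fun s hs hsM =>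
  hI g s hs (IntermediateField.fixingSubgroup_antitone R.Lf_le_Mf hsM)

/-- The Frobenius at any point of a prime gives the value of the character. -/
theorem isUnramWith_of_frobAt {P : PK R.Mf} (hP : IsPoint P q g)
    (hI : ∀ g, R.NoInertia q g R.Lf) {σ : GQ}
    (hσ : σ ∈ R.Mf.fixingSubgroup) (hfr : R.IsFrobAt q g σ P.asIdeal.absNorm) :
    IsUnramWith R.chi P (chi4 (R.e σ)) := by
  suffices key : ∀ (q' : ℕ) (_ : Fact q'.Prime) (g' : GQ), IsPoint P q' g' →
      ∀ d ∈ (locField q' g' R.Mf).fixingSubgroup,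
        R.chi (locHom q' g' d) = chi4 (R.e σ) * frobExp (locField q' g' R.Mf) 4 d from
    key _ _ _ (isPoint_gOf P)
  intro q' hq' g' hP'
  obtain rfl : q' = q := hP.prime_eq hP'
  obtain ⟨l, u, hu, rfl⟩ := hP.exists_mul hP'
  set g' := g * locHom q' g l * u
  obtain ⟨m, hm, d₀, h4, hd₀, hfr₀, hall⟩ :=
    R.exists_unr q' g' R.Mf (R.le_Nf c4) (R.noInertia_Mf hI)
  rw [resCard_eq_absNorm hP'] at hfr₀
  have hσ' : R.e (locHom q' g' d₀) = R.e (u⁻¹ * σ * u) :=
    R.e_eq_of_isFrobAt (R.le_Nf c4) (R.noInertia_Mf hI) (locHom_mem hd₀)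
      (mul_mem (mul_mem (inv_mem hu) hσ) hu) hfr₀
      (R.isFrobAt_mul ((R.isFrobAt_locHom_mul l).2 hfr))
  intro d hd
  have hc : R.chi (locHom q' g' d₀) = chi4 (R.e σ) := by
    rw [chi_apply, hσ', ← chi_apply, R.chi.map_mul (mul_mem (inv_mem hu) hσ) hu,
      R.chi.map_mul (inv_mem hu) hσ, R.chi.map_inv hu, chi_apply]
    abel
  rw [chi_apply, hall d hd, ← map_pow R.e, ← chi_apply, R.chi.map_pow (locHom_mem hd₀), hc,
    frobExp_cast (locField q' g' R.Mf) 4 m h4 hd, mul_comm]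

/-- An unramified component in closed form. -/
theorem charC_of_unram {P : PK R.Mf} {c : ZMod 4} (hc : IsUnramWith R.chi P c) {x : R.Mf}
    (hx : x ≠ 0) : charC R.chi P x = Complex.I ^ ((c.val : ℤ) * ordP P (x : Qbar)) := by
  have hx' : (x : Qbar) ≠ 0 := by simpa using hx
  rw [charC_apply R.chi P hx', circCh,
    invCh_of_unram R.chi hc (mem_starK_of_mem R.Mf (a := Ux.mk (x : Qbar) hx') x.2)]
  exact toCircle_qz _

omit hq in
/-- The complex character is one iff the invariant vanishes. -/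
lemma circCh_eq_one_iff (P : PK R.Mf) (h : GM) :
    circCh R.chi P h = 1 ↔ invCh R.chi P h = 0 := by
  rw [circCh, ← Circle.coe_one, Circle.coe_inj, ← AddCircle.toCircle_zero (T := (1 : ℝ)),
    (AddCircle.injective_toCircle one_ne_zero).eq_iff, ← map_zero qzReal, qzReal_injective.eq_iff]

/-- The component at any prime is trivial near one. -/
theorem exists_charC_near {P : PK R.Mf} (hP : IsPoint P q g) :
    ∃ ε > (0 : ℝ), ∀ x : R.Mf, ‖emb q g (x : Qbar) - 1‖ < ε → charC R.chi P x = 1 := by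
  suffices key : ∀ (q' : ℕ) (_ : Fact q'.Prime) (g' : GQ), IsPoint P q' g' →
      (∃ ε > (0 : ℝ), ∀ x : R.Mf, ‖emb q' g' (x : Qbar) - 1‖ < ε → charC R.chi P x = 1) →
      ∃ ε > (0 : ℝ), ∀ x : R.Mf, ‖emb q g (x : Qbar) - 1‖ < ε → charC R.chi P x = 1 by
    refine key _ _ _ (isPoint_gOf P) ?_
    obtain ⟨ε, hε, -, hroot⟩ := exists_root_radius (F := locK P) 4
    refine ⟨min ε 1, lt_min hε one_pos, fun z hz => ?_⟩
    have hz0 : (z : Qbar) ≠ 0 := fun e => by
      rw [e, map_zero, zero_sub, norm_neg, norm_one] at hz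
      exact absurd (hz.trans_le (min_le_right _ _)) (lt_irrefl 1)
    rw [charC_apply R.chi P hz0, R.circCh_eq_one_iff, invCh_eq]
    obtain ⟨u, hu, hun⟩ := hroot _ (emb_mem_locField z.2) (hz.trans_le (min_le_left _ _))
    have hu0 : u ≠ 0 := fun h0 => by
      rw [h0, zero_pow (by norm_num : (4 : ℕ) ≠ 0)] at hun
      exact (_root_.map_ne_zero _).mpr hz0 hun.symm
    rw [show embUx (qOf P) (gOf P) (Ux.mk (z : Qbar) hz0) = 4 • Ux.mk u hu0 from Ux.ext (by
      rw [Ux.val_nsmul, Ux.val_mk, hun, val_embUx, Ux.val_mk])]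
    exact inv_cyc_nsmul _ _ (mem_fixedUx_fixingSubgroup.mpr hu)
  intro q' hq' g' hP' ⟨ε, hε, h⟩
  obtain rfl : q' = q := hP.prime_eq hP'
  refine ⟨ε, hε, fun x hx => h x ?_⟩
  have e : ∀ y : R.Mf, ‖emb q' g' (y : Qbar)‖ = ‖emb q' g (y : Qbar)‖ := fun y =>
    norm_emb_eq (K := R.Mf) (fun a ha => by
      rw [← hP'.valuation_le_one_iff ⟨a, ha⟩, ← hP.valuation_le_one_iff ⟨a, ha⟩]) y.2
  have e' := e (x - 1)
  simp only [AddSubgroupClass.coe_sub, map_sub, OneMemClass.coe_one, map_one] at e'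
  rwa [e']

end GRep

end FermatAgent.LT2.Fields
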