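import Fermat.Agent.LT2.Fields.Rep
import Fermat.Agent.LT.Octa.Local

/-!
# Frobenius elements and inertia at an embedding

Nothing is assumed on inertia at three.
-/

set_option autoImplicit false

noncomputable section

open scoped Classical NumberField Pointwise
open IsDedekindDomain

namespace FermatAgent.LT2.Fields

open CFT CFT.Coh CFT.Local CFT.Global FermatAgent.GaloisBasic
open FermatAgent.LT FermatAgent.LT.Octa
open FermatAgent.LT.Period (GL3 refl3)

namespace GRep

variable {q : ℕ} [hq : Fact q.Prime] {g : GQ}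
variable {F0 : IntermediateField ℚ Qbar} [FiniteDimensional ℚ F0]

variable (R : GRep)

variable (q) in
/-- Acting on residues of the splitting field as the power `Q`. -/
def IsFrobAt (g σ : GQ) (Q : ℕ) : Prop :=
  ∀ x ∈ R.Nf, IsIntegral ℤ x → ‖emb q g (σ x) - emb q g x ^ Q‖ < 1

variable (q) in
/-- Inertia at the embedding has trivial image on the subgroup fixing a subfield. -/
def NoInertia (g : GQ) (F0 : IntermediateField ℚ Qbar) : Prop :=
  ∀ s ∈ (plA q g).inertiaSubgroupIn ℚ, s ∈ F0.fixingSubgroup → R.e s = 1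

/-- The field of the representation is normal. -/
lemma apply_mem_Nf (σ : GQ) {x : Qbar} (hx : x ∈ R.Nf) : σ x ∈ R.Nf := by
  have := AlgEquiv.restrictNormal_commutes σ R.Nf ⟨x, hx⟩
  exact this ▸ (AlgEquiv.restrictNormalHom R.Nf σ ⟨x, hx⟩).2

omit [FiniteDimensional ℚ F0] in
/-- Frobenius elements of the same level have the same image. -/
theorem e_eq_of_isFrobAt (hle : F0 ≤ R.Nf) (hI : R.NoInertia q g F0) {σ σ' : GQ}
    (hσ : σ ∈ F0.fixingSubgroup) (hσ' : σ' ∈ F0.fixingSubgroup) {Q : ℕ}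
    (h : R.IsFrobAt q g σ Q) (h' : R.IsFrobAt q g σ' Q) : R.e σ = R.e σ' := by
  set τ := AlgEquiv.restrictNormalHom R.Nf (σ * σ'⁻¹)
  have hτ : ∀ c : 𝓞 R.Nf, τ • c - c ∈ centerIn R.Nf (plA q g) := fun c => by
    rw [centerIn, Ideal.mem_comap, map_sub, coe_restrictNormal_smul, mem_center_plA]
    show ‖emb q g ((σ * σ'⁻¹) ((c : R.Nf) : Qbar) - ((c : R.Nf) : Qbar))‖ < 1
    rw [map_sub, AlgEquiv.mul_apply]
    set y := σ'⁻¹ ((c : R.Nf) : Qbar)
    have hyN : y ∈ R.Nf := R.apply_mem_Nf _ (c : R.Nf).2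
    have hyi : IsIntegral ℤ y := ((NumberField.RingOfIntegers.isIntegral_coe c).map
      (IsScalarTower.toAlgHom ℤ R.Nf Qbar)).map (σ'⁻¹.toAlgHom.restrictScalars ℤ)
    have e : σ' y = ((c : R.Nf) : Qbar) := by
      show σ' (σ'⁻¹ _) = _
      rw [← AlgEquiv.mul_apply, mul_inv_cancel, AlgEquiv.one_apply]
    have h1 := h y hyN hyi
    have h2 := h' y hyN hyi
    rw [e] at h2
    rw [show emb q g (σ y) - emb q g ((c : R.Nf) : Qbar) = (emb q g (σ y) - emb q g y ^ Q) +
      -(emb q g ((c : R.Nf) : Qbar) - emb q g y ^ Q) by ring]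
    exact (IsUltrametricDist.norm_add_le_max _ _).trans_lt (max_lt h1 (by rwa [norm_neg]))
  obtain ⟨s, hs, hsτ⟩ :=
    exists_mem_inertiaSubgroupIn_restrictNormal_eq R.Nf hq.out (liesOverPrime_plA g) τ hτ
  have hN : (σ * σ'⁻¹)⁻¹ * s ∈ R.Nf.fixingSubgroup := by
    rw [← restrictNormalHom_eq_one_iff R.Nf, map_mul, map_inv, hsτ, inv_mul_cancel]
  have hsF : s ∈ F0.fixingSubgroup := by
    have := mul_mem (mul_mem hσ (inv_mem hσ')) (IntermediateField.fixingSubgroup_antitone hle hN)
    rwa [mul_inv_cancel_left] at this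
  have h1 := R.e_eq_of_mem_Nf hN
  rw [map_mul, hI s hs hsF, mul_one, map_inv, inv_eq_one, map_mul, map_inv, mul_inv_eq_one] at h1
  exact h1

variable (q) in
/-- A local element as a residual power. -/
theorem exists_frobExp_level (g : GQ) (F0 : IntermediateField ℚ Qbar) [FiniteDimensional ℚ F0]
    (hle : F0 ≤ R.Nf) :
    ∃ (m : ℕ) (_ : NeZero m), 4 ∣ m ∧ ∀ d ∈ (locField q g F0).fixingSubgroup,
      R.IsFrobAt q g (locHom q g d)
        (resCard (locField q g F0) ^ (frobExp (locField q g F0) m d).val) := by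
  obtain ⟨e, f, -, hf0, hf, -, -⟩ := exists_ramification (locField_mono (q := q) (g := g) hle)
  have : NeZero (4 * f) := ⟨(Nat.mul_pos (by norm_num) hf0).ne'⟩
  refine ⟨4 * f, inferInstance, dvd_mul_right 4 f, fun d hd x hx hxi => ?_⟩
  have h1 : ‖emb q g x‖ ≤ 1 := norm_emb_integral g hxi
  have h2 : ∀ k : ℕ, ‖emb q g x ^ k‖ ≤ 1 := fun k => by
    rw [norm_pow]; exact pow_le_one₀ (norm_nonneg _) h1
  rw [emb_locHom, ← res_eq_res_iff (by rwa [norm_apply]) (h2 _), res_pow h1]
  exact res_apply_pow (dvd_mul_left f 4) hf hd (emb_mem_locField hx) h1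

variable (q) in
/-- Without inertia the image of the local group follows the unramified exponent. -/
theorem exists_unr (g : GQ) (F0 : IntermediateField ℚ Qbar) [FiniteDimensional ℚ F0]
    (hle : F0 ≤ R.Nf) (hI : R.NoInertia q g F0) :
    ∃ (m : ℕ) (_ : NeZero m) (d₀ : Gal' q), 4 ∣ m ∧ d₀ ∈ (locField q g F0).fixingSubgroup ∧
      R.IsFrobAt q g (locHom q g d₀) (resCard (locField q g F0)) ∧
      ∀ d ∈ (locField q g F0).fixingSubgroup,
        R.e (locHom q g d) = R.e (locHom q g d₀) ^ (frobExp (locField q g F0) m d).val := by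
  obtain ⟨m, hm, h4, key⟩ := R.exists_frobExp_level q g F0 hle
  set F := locField q g F0
  have hfr := frob_mem F m
  have h1 : (1 : ZMod m).val = 1 := by
    have : Fact (1 < m) := ⟨lt_of_lt_of_le (by norm_num) (Nat.le_of_dvd (NeZero.pos m) h4)⟩
    exact ZMod.val_one m
  refine ⟨m, hm, frob F m, h4, hfr, ?_, fun d hd => ?_⟩
  · have := key _ hfr
    rwa [frobExp_frob, h1, pow_one] at this
  rw [← map_pow R.e]
  refine R.e_eq_of_isFrobAt hle hI (locHom_mem hd) (pow_mem (locHom_mem hfr) _) (key d hd) ?_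
  set i := (frobExp F m d).val
  have hexp : frobExp F m (frob F m ^ i) = frobExp F m d := by
    have := (unramChar F m).map_pow hfr i
    simp only [unramChar_apply, frobExp_frob, mul_one] at this
    rw [this, ZMod.natCast_zmod_val]
  have := key _ (pow_mem hfr i)
  rwa [hexp, map_pow] at this

/-- Frobenius data transform by conjugation. -/
lemma isFrobAt_mul {σ w : GQ} {Q : ℕ} (h : R.IsFrobAt q g σ Q) :
    R.IsFrobAt q (g * w) (w⁻¹ * σ * w) Q := fun x hx hxi => by
  have := h (w x) (R.apply_mem_Nf w hx) (hxi.map (w.toAlgHom.restrictScalars ℤ))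
  rw [emb_mul, emb_mul, ← AlgEquiv.mul_apply w, ← mul_assoc, ← mul_assoc, mul_inv_cancel, one_mul,
    AlgEquiv.mul_apply]
  exact this

/-- Frobenius data are invariant under the decomposition group. -/
lemma isFrobAt_locHom_mul {σ : GQ} {Q : ℕ} (d : Gal' q) :
    R.IsFrobAt q (g * locHom q g d) σ Q ↔ R.IsFrobAt q g σ Q := by
  refine forall_congr' fun x => imp_congr_right fun _ => imp_congr_right fun _ => ?_
  rw [emb_mul, emb_mul, emb_locHom, emb_locHom, ← map_pow, ← map_sub, norm_apply]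

/-- An inertia element of the subgroup is seen by the local group, with exponent zero. -/
theorem exists_local_of_inertia (hle : F0 ≤ R.Nf) {n : ℕ} [NeZero n] {s : GQ}
    (hs : s ∈ (plA q g).inertiaSubgroupIn ℚ) (hsF : s ∈ F0.fixingSubgroup) :
    ∃ d ∈ (locField q g F0).fixingSubgroup,
      R.e (locHom q g d) = R.e s ∧ frobExp (locField q g F0) n d = 0 := by
  set F := locField q g F0
  obtain ⟨z, hz⟩ := exists_emb_eq_of_root (q := q) g
    (P := Polynomial.X ^ unramOrder F n - 1)
    (Polynomial.monic_X_pow_sub_C (1 : ℚ) (unramOrder_pos F n).ne')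
    (y := unramRoot F n) (by simp [(unramRoot_spec F n).pow_eq_one])
  have : FiniteDimensional ℚ (IntermediateField.adjoin ℚ ({z} : Set Qbar)) :=
    IntermediateField.adjoin.finiteDimensional (Algebra.IsIntegral.isIntegral z)
  set N2 := R.Nf ⊔ IntermediateField.adjoin ℚ ({z} : Set Qbar)
  have hD := inertiaSubgroupIn_le_decompositionSubgroup _ hs
  obtain ⟨d, w, hw, hgs⟩ := exists_locHom_mul (K := N2) (q := q) (g := g) (g' := g * s)
    fun a _ => by rw [emb_mul, norm_emb_apply_le_iff hD]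
  rw [mul_assoc, mul_right_inj] at hgs
  have hwN : w ∈ R.Nf.fixingSubgroup := IntermediateField.fixingSubgroup_antitone le_sup_left hw
  have hwF : w ∈ F0.fixingSubgroup := IntermediateField.fixingSubgroup_antitone hle hwN
  have hl : locHom q g d = s * w⁻¹ := by rw [hgs, mul_inv_cancel_right]
  have hdF : d ∈ F.fixingSubgroup := by
    rw [fixingSubgroup_locField, Subgroup.mem_comap, hl]
    exact mul_mem hsF (inv_mem hwF)
  refine ⟨d, hdF, by rw [hl, map_mul, map_inv, R.e_eq_of_mem_Nf hwN, inv_one, mul_one], ?_⟩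
  have hwz : w⁻¹ z = z := (IntermediateField.mem_fixingSubgroup_iff _ _).1 (inv_mem hw) z
    ((le_sup_right : _ ≤ N2) (IntermediateField.mem_adjoin_simple_self ℚ z))
  have hzi : IsIntegral ℤ z := by
    refine IsIntegral.of_pow (unramOrder_pos F n) ?_
    rw [show z ^ unramOrder F n = 1 from emb_injective (q := q) g (by
      rw [map_pow, hz, map_one, (unramRoot_spec F n).pow_eq_one])]
    exact isIntegral_one
  have hroot : d (unramRoot F n) = unramRoot F n := by
    have hclose : ‖d (unramRoot F n) - unramRoot F n‖ < 1 := by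
      rw [← hz, ← emb_locHom, hl, AlgEquiv.mul_apply, hwz]
      exact norm_sub_lt_of_inertia hs hzi
    exact eq_of_res_eq (not_dvd_unramOrder F n)
      (by rw [← map_pow, (unramRoot_spec F n).pow_eq_one, map_one])
      (unramRoot_spec F n).pow_eq_one
      ((res_eq_res_iff (by rw [norm_apply, norm_unramRoot]) (norm_unramRoot F n).le).2 hclose)
  rw [frobExp_eq F n (i := 0) (by rw [hroot, pow_zero, pow_one]), Nat.cast_zero]

end GRep

end FermatAgent.LT2.Fields
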