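import Fermat.Agent.LT2.Fields.Local
import Fermat.Agent.LT.Octa.Over
import Fermat.Agent.LT.Octa.Finite2
import Fermat.Agent.LT.Descent.GlueingPlaces
import Fermat.Agent.LT.Descent.InfTriple
import Fermat.Agent.GaloisBasic.FiniteFrobenius

/-!
# The cubic extension and the places below

Nothing is assumed on inertia at three.
-/

set_option autoImplicit false

noncomputable section

open scoped Classical NumberField Pointwise
open IsDedekindDomain

namespace FermatAgent.LT2.Fields

open CFT CFT.Coh CFT.Local CFT.Global FermatAgent.GaloisBasic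
open FermatAgent.LT FermatAgent.LT.Octa
open FermatAgent.LT.Period (GL3 refl3)

namespace GRep

variable (R : GRep)

/-- A lift of a generator of the Galois group of `L/K`. -/
def tK : GQ := (R.surj exists_det_one_not_q8.choose).choose

lemma e_tK : R.e R.tK = exists_det_one_not_q8.choose := (R.surj _).choose_spec

lemma tK_det : (R.e R.tK).val.det = 1 := by
  rw [R.e_tK]; exact exists_det_one_not_q8.choose_spec.1

lemma tK_not : ¬IsQ8 (R.e R.tK) := by rw [R.e_tK]; exact exists_det_one_not_q8.choose_spec.2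

lemma tK_mem : R.tK ∈ R.Kf.fixingSubgroup := R.mem_Kf.2 R.tK_det

/-- The generator of the Galois group of `L/K`. -/
def tauE : R.Lf ≃ₐ[ℚ] R.Lf := AlgEquiv.restrictNormalHom R.Lf R.tK

/-- The generator as a ring automorphism. -/
def tau : R.Lf ≃+* R.Lf := R.tauE.toRingEquiv

lemma coe_tau (x : R.Lf) : ((R.tau x : R.Lf) : Qbar) = R.tK (x : Qbar) :=
  AlgEquiv.restrictNormal_commutes R.tK R.Lf x

/-- The elements of the group fixing `K`, modulo that of `L`. -/
lemma exists_pow_tau {u : GQ} (hu : u ∈ R.Kf.fixingSubgroup) :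
    ∃ i : Fin 3, ∀ x : R.Lf, u (x : Qbar) = (R.tK ^ i.val) (x : Qbar) := by
  have hfix : ∀ v, IsQ8 (R.e v) → ∀ x : R.Lf, v (x : Qbar) = x := fun v hv x =>
    (IntermediateField.mem_fixingSubgroup_iff _ _).1 (R.mem_Lf.2 hv) _ x.2
  rcases sl_mod_q8 (R.e R.tK) (R.e u) R.tK_det R.tK_not (R.mem_Kf.1 hu) with h | h | h
  · exact ⟨0, fun x => by simpa using hfix _ h x⟩
  · rw [← map_inv, ← map_mul] at h
    exact ⟨1, fun x => by
      have := congrArg R.tK (hfix _ h x)
      rwa [← AlgEquiv.mul_apply, mul_inv_cancel_left, ← pow_one R.tK] at this⟩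
  · rw [← map_inv, ← map_mul, ← map_mul] at h
    exact ⟨2, fun x => by
      have := congrArg (fun y => R.tK (R.tK y)) (hfix _ h x)
      simp only [← AlgEquiv.mul_apply, ← mul_assoc] at this
      rwa [show R.tK * R.tK * R.tK⁻¹ * R.tK⁻¹ * u = u by group, ← sq] at this⟩

/-- The cubic extension is a twist. -/
lemma isTwist : IsTwist R.Kf R.tau where
  cube x := Subtype.ext (by
    rw [R.coe_tau, R.coe_tau, R.coe_tau, ← AlgEquiv.mul_apply, ← AlgEquiv.mul_apply]
    refine (IntermediateField.mem_fixingSubgroup_iff _ _).1 (R.mem_Lf.2 ?_) _ x.2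
    rw [map_mul, map_mul, ← pow_three']
    exact det_one_cube _ R.tK_det)
  exists_ne := by
    by_contra h
    push Not at h
    refine R.tK_not (R.mem_Lf.1 ((IntermediateField.mem_fixingSubgroup_iff _ _).2 fun y hy => ?_))
    have := congrArg Subtype.val (h ⟨y, hy⟩)
    rwa [R.coe_tau] at this
  fix x := Subtype.ext (by
    rw [R.coe_tau]
    exact (IntermediateField.mem_fixingSubgroup_iff _ _).1 R.tK_mem _ x.2)
  surj x hx := by
    have hx' : R.tK (x : Qbar) = x := by rw [← R.coe_tau, hx]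
    refine ⟨⟨(x : Qbar), ?_⟩, Subtype.ext rfl⟩
    rw [← InfiniteGalois.fixedField_fixingSubgroup R.Kf]
    intro σ
    show σ.1 (x : Qbar) = x
    obtain ⟨i, hi⟩ := R.exists_pow_tau σ.2
    rw [hi x]
    induction i.val with
    | zero => rfl
    | succ k ih => rw [pow_succ, AlgEquiv.mul_apply, hx', ih]

instance isGalois_KL : IsGalois R.Kf R.Lf :=
  haveI : IsScalarTower ℚ R.Kf R.Lf := IsScalarTower.of_algebraMap_eq fun _ => rfl
  haveI : IsGalois ℚ R.Lf := ⟨⟩
  IsGalois.tower_top_of_isGalois ℚ R.Kf R.Lf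

/-- An archimedean cycle exists. -/
lemma exists_infCycle : Nonempty (InfCycle R.tau) := by
  obtain ⟨w₀⟩ : Nonempty (NumberField.InfinitePlace R.Lf) := inferInstance
  let t : R.Lf →+* R.Lf := (R.tau : R.Lf →+* R.Lf)
  let f : Fin 3 → NumberField.InfinitePlace R.Lf :=
    ![w₀, w₀.comap t, w₀.comap (t.comp t)]
  have hcomap : ∀ i, (f i).comap t = f (i + 1) := by
    intro i
    fin_cases i
    · rfl
    · rfl
    · refine DFunLike.ext _ _ fun x => ?_
      show w₀ (R.tau (R.tau (R.tau x))) = w₀ x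
      rw [R.isTwist.cube]
  have hsurj : Function.Surjective f := fun v => by
    obtain ⟨σ, hσ⟩ := NumberField.InfinitePlace.exists_smul_eq_of_comap_eq (k := R.Kf) (w := w₀)
      (w' := v) (@Subsingleton.elim _ R.isEis.subsingleton_place _ _)
    obtain ⟨s, hs⟩ := AlgEquiv.restrictNormalHom_surjective (K₁ := R.Lf) Qbar
      (σ.symm.restrictScalars ℚ)
    have hsK : s ∈ R.Kf.fixingSubgroup := by
      rw [IntermediateField.mem_fixingSubgroup_iff]
      intro y hy
      have h1 := AlgEquiv.restrictNormal_commutes s R.Lf (algebraMap R.Kf R.Lf ⟨y, hy⟩)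
      rw [show AlgEquiv.restrictNormal s R.Lf = σ.symm.restrictScalars ℚ from hs] at h1
      rw [show (σ.symm.restrictScalars ℚ) (algebraMap R.Kf R.Lf ⟨y, hy⟩) =
        algebraMap R.Kf R.Lf ⟨y, hy⟩ from σ.symm.commutes _] at h1
      exact h1.symm
    obtain ⟨i, hi⟩ := R.exists_pow_tau hsK
    have hσx : ∀ x : R.Lf, ((σ.symm x : R.Lf) : Qbar) = (R.tK ^ i.val) (x : Qbar) := fun x => by
      rw [← hi x]
      have h1 := AlgEquiv.restrictNormal_commutes s R.Lf x
      rw [show AlgEquiv.restrictNormal s R.Lf = σ.symm.restrictScalars ℚ from hs] at h1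
      exact h1
    refine ⟨i, ?_⟩
    rw [← hσ]
    refine DFunLike.ext _ _ fun x => ?_
    rw [NumberField.InfinitePlace.smul_apply]
    fin_cases i
    · show w₀ x = w₀ (σ.symm x)
      exact congrArg w₀ (Subtype.ext (by rw [hσx]; simp))
    · show w₀ (R.tau x) = w₀ (σ.symm x)
      exact congrArg w₀ (Subtype.ext (by rw [hσx, R.coe_tau]; simp))
    · show w₀ (R.tau (R.tau x)) = w₀ (σ.symm x)
      exact congrArg w₀ (Subtype.ext (by rw [hσx, R.coe_tau, R.coe_tau]; simp [pow_two]))
  have hcard : Fintype.card (NumberField.InfinitePlace R.Lf) = 3 := by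
    rw [NumberField.InfinitePlace.card_eq_nrRealPlaces_add_nrComplexPlaces,
      NumberField.IsTotallyComplex.nrRealPlaces_eq_zero]
    have := NumberField.IsTotallyComplex.finrank (K := R.Lf)
    rw [R.finrank_Lf] at this
    omega
  exact ⟨⟨Equiv.ofBijective f ((Fintype.bijective_iff_surjective_and_card f).2
    ⟨hsurj, by rw [Fintype.card_fin, hcard]⟩), hcomap,
    fun i => NumberField.IsTotallyComplex.isComplex _, R.isTwist.cube⟩⟩

variable {q : ℕ} [hq : Fact q.Prime] {g : GQ}

/-- The action of the generator on places. -/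
lemma placeMap_tau (g : GQ) :
    placeMap R.tau (primeAt R.Lf q g) = primeAt R.Lf q (g * R.tK⁻¹) := by
  refine HeightOneSpectrum.ext (Ideal.ext fun a => ?_)
  obtain ⟨b, rfl⟩ := (NumberField.RingOfIntegers.mapRingEquiv R.tau).surjective a
  have h := intValuation_placeMap R.tau (primeAt R.Lf q g) b
  rw [← (placeMap R.tau (primeAt R.Lf q g)).intValuation_lt_one_iff_mem, h,
    (primeAt R.Lf q g).intValuation_lt_one_iff_mem]
  show ‖emb q g ((b : R.Lf) : Qbar)‖ < 1 ↔
    ‖emb q (g * R.tK⁻¹) ((R.tau (b : R.Lf) : R.Lf) : Qbar)‖ < 1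
  rw [R.coe_tau, emb_mul, ← AlgEquiv.mul_apply R.tK⁻¹, inv_mul_cancel, AlgEquiv.one_apply]

/-- A fixed place sees an element of the local group outside the quaternions. -/
lemma exists_not_q8 {w : PK R.Lf} (hw : IsPoint w q g) (hfix : placeMap R.tau w = w) :
    ∃ d ∈ (locField q g R.Kf).fixingSubgroup, ¬IsQ8 (R.e (locHom q g d)) := by
  have hw' : IsPoint w q (g * R.tK⁻¹) := by
    have h := R.placeMap_tau (q := q) g
    rw [← hw.eq_primeAt, hfix] at h
    rw [h]
    exact isPoint_primeAt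
  obtain ⟨d, u, hu, hgu⟩ := hw.exists_mul hw'
  rw [mul_assoc, mul_right_inj] at hgu
  have hl : locHom q g d = R.tK⁻¹ * u⁻¹ := by rw [hgu, mul_inv_cancel_right]
  refine ⟨d, ?_, fun h => ?_⟩
  · rw [fixingSubgroup_locField, Subgroup.mem_comap, hl]
    exact mul_mem (inv_mem R.tK_mem)
      (inv_mem (IntermediateField.fixingSubgroup_antitone R.Kf_le_Lf hu))
  · have h' := mul_mem (R.mem_Lf.2 h) hu
    rw [hl, inv_mul_cancel_right] at h'
    exact R.tK_not (R.mem_Lf.1 (by simpa using inv_mem h'))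

/-- Off the primes ramified in the splitting field a fixed place is unramified in `L/K`. -/
theorem not_cube_of_noInertia {v : PK R.Kf} (hv : IsPoint v q g)
    (hI : R.NoInertia q g R.Kf) {w : PK R.Lf} (hw : IsPoint w q g) :
    ¬∀ x : R.Kf, w.valuation R.Lf (algebraMap R.Kf R.Lf x) = v.valuation R.Kf x ^ 3 := by
  intro hcube
  obtain ⟨m, hm, d₀, -, hd₀, hfr, hall⟩ := R.exists_unr q g R.Kf (R.le_Nf slThree) hI
  set F := locField q g R.Kf
  set F' := locField q g R.Lf
  obtain ⟨e, f, he0, hf0, hf, hord, hef⟩ :=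
    exists_ramification (locField_mono (q := q) (g := g) R.Kf_le_Lf)
  have he3 : e = 3 := by
    obtain ⟨π, hπ⟩ := v.valuation_exists_uniformizer R.Kf
    have hπ0 : π ≠ 0 := fun h0 => by rw [h0, map_zero] at hπ; exact WithZero.exp_ne_zero hπ.symm
    have hπ0' : (π : Qbar) ≠ 0 := by simpa using hπ0
    have h1 := hord (embUx q g (Ux.mk (π : Qbar) hπ0'))
      (embUx_mem_starF (mem_starK_of_mem R.Kf π.2))
    rw [ordUx, ordUx, val_embUx] at h1
    change ord F' (emb q g (π : Qbar)) = e * ord F (emb q g (π : Qbar)) at h1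
    rw [hw.ord_eq (R.Kf_le_Lf π.2) hπ0', hv.ord_eq π.2 hπ0', ← coe_algebraMap_KL, ordP_coe,
      hcube, WithZero.log_pow, coe_algebraMap_KL, ordP_coe, hπ, WithZero.log_exp] at h1
    exact_mod_cast (show (e : ℤ) = 3 by simpa using h1.symm)
  -- the Frobenius generates modulo the quaternions
  have hsub : F'.fixingSubgroup ≤ F.fixingSubgroup :=
    IntermediateField.fixingSubgroup_antitone (locField_mono R.Kf_le_Lf)
  have hmem : ∀ d, d ∈ F'.fixingSubgroup ↔ IsQ8 (R.e (locHom q g d)) := fun d => by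
    rw [fixingSubgroup_locField, Subgroup.mem_comap, R.mem_Lf]
  have hdet : (R.e (locHom q g d₀)).val.det = 1 := R.mem_Kf.1 (locHom_mem hd₀)
  by_cases hq8 : IsQ8 (R.e (locHom q g d₀))
  · have hone : F'.fixingSubgroup.relIndex F.fixingSubgroup = 1 :=
      Subgroup.relIndex_eq_one.2 fun d hd => (hmem d).2 (by
        rw [hall d hd]; exact q8.pow_mem hq8 _)
    rw [hone, he3] at hef
    omega
  · -- three cosets
    let f3 : Fin 3 → F.fixingSubgroup ⧸ F'.fixingSubgroup.subgroupOf F.fixingSubgroup :=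
      fun i => QuotientGroup.mk ⟨d₀ ^ i.val, pow_mem hd₀ _⟩
    have hsurj : Function.Surjective f3 := by
      intro z
      obtain ⟨⟨d, hd⟩, rfl⟩ := QuotientGroup.mk_surjective z
      rcases sl_mod_q8 _ (R.e (locHom q g d)) hdet hq8 (R.mem_Kf.1 (locHom_mem hd)) with h | h | h
      · exact ⟨0, QuotientGroup.eq.2 (by
          rw [Subgroup.mem_subgroupOf, hmem]; simpa using h)⟩
      · exact ⟨1, QuotientGroup.eq.2 (by
          rw [Subgroup.mem_subgroupOf, hmem]; simpa using h)⟩
      · exact ⟨2, QuotientGroup.eq.2 (by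
          rw [Subgroup.mem_subgroupOf, hmem]; simpa [pow_two, mul_assoc] using h)⟩
    have h3 : F'.fixingSubgroup.relIndex F.fixingSubgroup ≤ 3 := by
      have := Nat.card_le_card_of_surjective f3 hsurj
      simpa [Subgroup.relIndex, Subgroup.index] using this
    rw [← show e * f = _ from hef.symm, he3] at h3
    obtain rfl : f = 1 := by omega
    -- residue fields agree, so the Frobenius lies in the smaller group
    obtain ⟨m', hm', d₁, -, hd₁, hfr₁, -⟩ := R.exists_unr q g R.Lf (R.le_Nf q8)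
      (fun s hs hsL => hI s hs (IntermediateField.fixingSubgroup_antitone R.Kf_le_Lf hsL))
    rw [pow_one] at hf
    change resCard F' = resCard F at hf
    rw [hf] at hfr₁
    have h := R.e_eq_of_isFrobAt (R.le_Nf slThree) hI (locHom_mem hd₀) (locHom_mem (hsub hd₁)) hfr
      hfr₁
    exact hq8 (h ▸ (hmem d₁).1 hd₁)

/-- Unramified primes have no inertia in the splitting field. -/
lemma noInertia_of_inertiaTrivial (hS : InertiaTrivial R.Nf q)
    (F0 : IntermediateField ℚ Qbar) (g : GQ) : R.NoInertia q g F0 := fun s hs _ => by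
  have h := hS _ (liesOverPrime_plA g) (AlgEquiv.restrictNormalHom R.Nf s) fun c =>
    mem_centerIn_of_inertia R.Nf hq.out (liesOverPrime_plA g) hs c
  exact R.e_eq_of_mem_Nf ((restrictNormalHom_eq_one_iff R.Nf s).1 h)

instance isGalois_Nf : IsGalois ℚ R.Nf := ⟨⟩

/-- The place below. -/
def bK (w : PK R.Lf) : PK R.Kf := primeBelow R.Kf w

lemma bK_eq {w : PK R.Lf} (hw : IsPoint w q g) : R.bK w = primeAt R.Kf q g :=
  primeBelow_eq R.Kf_le_Lf hw

/-- The place below is the intersection. -/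
lemma bK_under (w : PK R.Lf) : (R.bK w).asIdeal = w.asIdeal.under (𝓞 R.Kf) :=
  Ideal.ext fun a => (isPoint_gOf w (algebraMap (𝓞 R.Kf) (𝓞 R.Lf) a)).symm

/-- Points descend to the place below. -/
lemma isPoint_bK {w : PK R.Lf} (hw : IsPoint w q g) : IsPoint (R.bK w) q g := by
  rw [R.bK_eq hw]; exact isPoint_primeAt

/-- Conjugate places lie over the same place. -/
lemma bK_tau (w : PK R.Lf) : R.bK (placeMap R.tau w) = R.bK w := by
  have hw := isPoint_gOf w
  conv_lhs => rw [hw.eq_primeAt, R.placeMap_tau]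
  rw [R.bK_eq isPoint_primeAt, R.bK_eq hw]
  exact primeAt_mul_of_mem (inv_mem R.tK_mem)

/-- Fibres over places are finite. -/
lemma bK_fibre_finite (v : PK R.Kf) : {w : PK R.Lf | R.bK w = v}.Finite := by
  obtain ⟨a, ha, ha0⟩ := Submodule.exists_mem_ne_zero_of_ne_bot v.ne_bot
  refine (Ideal.finite_factors (I := Ideal.span {algebraMap (𝓞 R.Kf) (𝓞 R.Lf) a}) ?_).subset
    fun w hw => ?_
  · rw [Ne, Ideal.zero_eq_bot, Ideal.span_singleton_eq_bot]
    intro h
    refine ha0 (NumberField.RingOfIntegers.coe_injective (Subtype.ext ?_))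
    simpa using congrArg (fun z : 𝓞 R.Lf => ((z : R.Lf) : Qbar)) h
  · refine Ideal.dvd_iff_le.2 ((Ideal.span_singleton_le_iff_mem _).2 ?_)
    rw [← show R.bK w = v from hw, R.bK_under] at ha
    exact ha

/-- Every place has a place above. -/
lemma exists_bK (v : PK R.Kf) : ∃ w, R.bK w = v :=
  ⟨primeAt R.Lf (qOf v) (gOf v),
    (R.bK_eq isPoint_primeAt).trans (isPoint_gOf v).eq_primeAt.symm⟩

/-- The primes ramified in the splitting field, two and three. -/
def badP : Finset ℕ := insert 2 (insert 3 (exists_finite_inertiaTrivial R.Nf).choose)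

/-- Three is a bad prime. -/
lemma three_mem_badP : 3 ∈ R.badP := Finset.mem_insert_of_mem (Finset.mem_insert_self _ _)

lemma inertiaTrivial_of_notMem {p : ℕ} (hp : p.Prime) (h : p ∉ R.badP) : InertiaTrivial R.Nf p :=
  (exists_finite_inertiaTrivial R.Nf).choose_spec p hp fun h' =>
    h (Finset.mem_insert_of_mem (Finset.mem_insert_of_mem h'))

/-- There is no inertia at good primes. -/
lemma noInertia_good {p : ℕ} [Fact p.Prime] (h : p ∉ R.badP) (F0 : IntermediateField ℚ Qbar)
    (g : GQ) : R.NoInertia p g F0 :=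
  R.noInertia_of_inertiaTrivial (R.inertiaTrivial_of_notMem Fact.out h) F0 g

omit hq in
/-- A function invariant under the automorphism is one on the places below. -/
lemma eq_of_bK_eq {α : Type*} (f : PK R.Lf → α) (hf : ∀ w, f (placeMap R.tau w) = f w)
    {w w' : PK R.Lf} (hb : R.bK w' = R.bK w) : f w = f w' := by
  suffices key : ∀ (q : ℕ) (_ : Fact q.Prime) (g : GQ), IsPoint w q g → f w = f w' from
    key _ _ _ (isPoint_gOf w)
  intro q hq g hw
  suffices key : ∀ (q' : ℕ) (_ : Fact q'.Prime) (g' : GQ), IsPoint w' q' g' →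
      f w = f w' from key _ _ _ (isPoint_gOf w')
  intro q' hq' g' hw'
  have hv : IsPoint (R.bK w) q g := R.isPoint_bK hw
  have hv' : IsPoint (R.bK w) q' g' := hb ▸ R.isPoint_bK hw'
  obtain rfl : q' = q := hv.prime_eq hv'
  obtain ⟨l, u, hu, rfl⟩ := hv.exists_mul hv'
  obtain ⟨i, hi⟩ := R.exists_pow_tau hu
  have e : w' = primeAt R.Lf q' (g * R.tK ^ i.val) := by
    rw [hw'.eq_primeAt]
    refine HeightOneSpectrum.ext (Ideal.ext fun a => ?_)
    show ‖emb q' _ ((a : R.Lf) : Qbar)‖ < 1 ↔ ‖emb q' _ ((a : R.Lf) : Qbar)‖ < 1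
    rw [emb_mul, emb_mul, emb_locHom, norm_apply, hi (a : R.Lf), ← emb_mul]
  have hpow : ∀ k : ℕ, f (primeAt R.Lf q' (g * R.tK ^ k)) = f w := by
    intro k
    induction k with
    | zero => rw [pow_zero, mul_one, ← hw.eq_primeAt]
    | succ k ih =>
      rw [← ih, pow_succ, ← mul_assoc]
      conv_rhs => rw [← mul_inv_cancel_right (g * R.tK ^ k) R.tK, ← R.placeMap_tau, hf]
  rw [e, hpow]

/-- The representation on the finite level. -/
lemma exists_eN : ∃ eN : (R.Nf ≃ₐ[ℚ] R.Nf) →* GL3,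
    ∀ σ : GQ, eN (AlgEquiv.restrictNormalHom R.Nf σ) = R.e σ := by
  have hs := AlgEquiv.restrictNormalHom_surjective (F := ℚ) (K₁ := R.Nf) Qbar
  have hk : (AlgEquiv.restrictNormalHom (F := ℚ) (K₁ := Qbar) R.Nf).ker ≤ R.e.ker := fun σ hσ =>
    R.e_eq_of_mem_Nf ((restrictNormalHom_eq_one_iff R.Nf σ).1 hσ)
  exact ⟨MonoidHom.liftOfSurjective _ hs ⟨R.e, hk⟩, fun σ =>
    MonoidHom.liftOfRightInverse_comp_apply _ _ _ _ σ⟩

end GRep

end FermatAgent.LT2.Fields
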