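import Fermat.Agent.LT.Octa.Finite
import Fermat.Agent.LT.Period.Field
import Fermat.Agent.LT.Theta.QuadConj
import Fermat.Agent.CFT.Global.Primes
import Fermat.Agent.GaloisBasic.FiniteFrobenius
import Fermat.Prelude.Def_GaloisRep_ModThreeCyclotomic

/-!
# A surjection onto `GL₂(𝔽₃)` with cyclotomic determinant, and its fields

Nothing is assumed on inertia.  `K`, `L`, `M` are the fixed fields of the preimages of the
determinant one subgroup, the quaternion subgroup and a cyclic subgroup of order four.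
-/

set_option autoImplicit false

noncomputable section

open NumberField
open FermatAgent.GaloisBasic
open FermatAgent.LT.Period (GL3 IsEis IsFrobImage)
open FermatAgent.LT.Octa (slThree q8 c4 mem_slThree q8_le_sl c4_le_q8 q8_conj
  c4_conj_q8 IsQ8 IsC4 card_gl3 card_det_one card_isQ8 card_isC4 exists_q8_not_c4)

namespace FermatAgent.LT2.Fields

/-- A surjection of the absolute Galois group onto `GL₂(𝔽₃)` with cyclotomic determinant. -/
structure GRep where
  /-- the representation -/
  e : GQ →* GL3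
  surj : Function.Surjective e
  open_ker : IsOpen (e.ker : Set GQ)
  det : ∀ (σ : GQ) (ζ : Qbar), ζ ^ 3 = 1 → σ ζ = ζ ^ ((e σ).val.det).val

namespace GRep

variable (R : GRep)

/-- The field fixed by the preimage of a subgroup. -/
def fld (H : Subgroup GL3) : IntermediateField ℚ Qbar :=
  IntermediateField.fixedField (H.comap R.e)

lemma isOpen_comap (H : Subgroup GL3) : IsOpen ((H.comap R.e : Subgroup GQ) : Set GQ) :=
  Subgroup.isOpen_mono (fun σ hσ => by
    rw [Subgroup.mem_comap, MonoidHom.mem_ker.1 hσ]; exact one_mem H) R.open_ker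

lemma fixingSubgroup_fld (H : Subgroup GL3) : (R.fld H).fixingSubgroup = H.comap R.e :=
  InfiniteGalois.fixingSubgroup_fixedField
    ⟨H.comap R.e, Subgroup.isClosed_of_isOpen _ (R.isOpen_comap H)⟩

lemma mem_fixing_fld {H : Subgroup GL3} {σ : GQ} :
    σ ∈ (R.fld H).fixingSubgroup ↔ R.e σ ∈ H := by
  rw [R.fixingSubgroup_fld H, Subgroup.mem_comap]

instance finiteDimensional_fld (H : Subgroup GL3) : FiniteDimensional ℚ (R.fld H) :=
  (InfiniteGalois.isOpen_iff_finite (R.fld H)).mp (by
    rw [R.fixingSubgroup_fld H]; exact R.isOpen_comap H)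

lemma fld_anti {H H' : Subgroup GL3} (h : H ≤ H') : R.fld H' ≤ R.fld H :=
  fun _ hx σ => hx ⟨σ.1, h σ.2⟩

lemma finrank_fld (H : Subgroup GL3) : Module.finrank ℚ (R.fld H) = H.index := by
  rw [IntermediateField.finrank_eq_fixingSubgroup_index, R.fixingSubgroup_fld H,
    Subgroup.index_comap_of_surjective _ R.surj]

lemma normal_fld (H : Subgroup GL3) [H.Normal] : Normal ℚ (R.fld H) := by
  have : IsGalois ℚ (R.fld H) := (InfiniteGalois.normal_iff_isGalois (R.fld H)).mp (by
    rw [R.fixingSubgroup_fld H]; exact Subgroup.Normal.comap inferInstance R.e)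
  infer_instance

end GRep

namespace GRep

variable (R : GRep)

/-- The imaginary quadratic field. -/
abbrev Kf : IntermediateField ℚ Qbar := R.fld slThree

/-- The sextic field. -/
abbrev Lf : IntermediateField ℚ Qbar := R.fld q8

/-- The field of the character. -/
abbrev Mf : IntermediateField ℚ Qbar := R.fld c4

/-- The quadratic field lies in the sextic one. -/
lemma Kf_le_Lf : R.Kf ≤ R.Lf := R.fld_anti q8_le_sl

/-- The sextic field lies in the one above. -/
lemma Lf_le_Mf : R.Lf ≤ R.Mf := R.fld_anti c4_le_q8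

instance algebraKL : Algebra R.Kf R.Lf :=
  (IntermediateField.inclusion R.Kf_le_Lf).toRingHom.toAlgebra

instance algebraLM : Algebra R.Lf R.Mf :=
  (IntermediateField.inclusion R.Lf_le_Mf).toRingHom.toAlgebra

/-- The inclusion of the quadratic field. -/
@[simp] lemma coe_algebraMap_KL (x : R.Kf) :
    ((algebraMap R.Kf R.Lf x : R.Lf) : Qbar) = (x : Qbar) := rfl

/-- The inclusion of the sextic field. -/
@[simp] lemma coe_algebraMap_LM (x : R.Lf) :
    ((algebraMap R.Lf R.Mf x : R.Mf) : Qbar) = (x : Qbar) := rfl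

/-- The group of the quadratic field. -/
lemma mem_Kf {σ : GQ} : σ ∈ R.Kf.fixingSubgroup ↔ (R.e σ).val.det = 1 :=
  R.mem_fixing_fld.trans mem_slThree

/-- The group of the sextic field. -/
lemma mem_Lf {σ : GQ} : σ ∈ R.Lf.fixingSubgroup ↔ IsQ8 (R.e σ) := R.mem_fixing_fld

/-- The group of the top field. -/
lemma mem_Mf {σ : GQ} : σ ∈ R.Mf.fixingSubgroup ↔ IsC4 (R.e σ) := R.mem_fixing_fld

lemma index_slThree : slThree.index = 2 := by
  have h := slThree.card_mul_index
  rw [Nat.card_eq_fintype_card (α := GL3), card_gl3,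
    show Nat.card slThree = Nat.card {g : GL3 // g.val.det = 1} from
      Nat.card_congr (Equiv.subtypeEquivRight fun g => mem_slThree),
    Nat.card_eq_fintype_card, card_det_one] at h
  omega

lemma index_q8 : q8.index = 6 := by
  have h := q8.card_mul_index
  rw [Nat.card_eq_fintype_card (α := GL3), card_gl3,
    show Nat.card q8 = Nat.card {g : GL3 // IsQ8 g} from rfl,
    Nat.card_eq_fintype_card, card_isQ8] at h
  omega

lemma index_c4 : c4.index = 12 := by
  have h := c4.card_mul_index
  rw [Nat.card_eq_fintype_card (α := GL3), card_gl3,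
    show Nat.card c4 = Nat.card {g : GL3 // IsC4 g} from rfl,
    Nat.card_eq_fintype_card, card_isC4] at h
  omega

/-- The base has degree two. -/
lemma finrank_Kf : Module.finrank ℚ R.Kf = 2 := (R.finrank_fld _).trans index_slThree

/-- The sextic field has degree six. -/
lemma finrank_Lf : Module.finrank ℚ R.Lf = 6 := (R.finrank_fld _).trans index_q8

lemma finrank_Mf : Module.finrank ℚ R.Mf = 12 := (R.finrank_fld _).trans index_c4

instance towerQLM : IsScalarTower ℚ R.Lf R.Mf := IsScalarTower.of_algebraMap_eq fun _ => rfl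

lemma finrank_LM : Module.finrank R.Lf R.Mf = 2 := by
  have h := Module.finrank_mul_finrank ℚ R.Lf R.Mf
  rw [R.finrank_Lf, R.finrank_Mf] at h
  omega

instance quadLM : Algebra.IsQuadraticExtension R.Lf R.Mf where
  finrank_eq_two' := R.finrank_LM

instance normal_Lf : Normal ℚ R.Lf := R.normal_fld q8

/-- The finite level of the representation. -/
abbrev Nf : IntermediateField ℚ Qbar := R.fld ⊥

instance normal_Nf : Normal ℚ R.Nf := R.normal_fld ⊥

/-- The group of the big field acts trivially. -/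
lemma e_eq_of_mem_Nf {σ : GQ} (h : σ ∈ R.Nf.fixingSubgroup) : R.e σ = 1 :=
  Subgroup.mem_bot.1 (R.mem_fixing_fld.1 h)

/-- Fields of subgroups lie in the big field. -/
lemma le_Nf (H : Subgroup GL3) : R.fld H ≤ R.Nf := R.fld_anti bot_le

/-- A primitive cube root of unity lies in `K`. -/
lemma exists_zeta : ∃ z : R.Kf, IsPrimitiveRoot z 3 := by
  obtain ⟨μ, hμ⟩ := HasEnoughRootsOfUnity.exists_primitiveRoot Qbar 3
  have hμK : μ ∈ R.Kf := by
    rw [← InfiniteGalois.fixedField_fixingSubgroup R.Kf]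
    intro σ
    show σ.1 μ = μ
    rw [R.det σ.1 μ hμ.pow_eq_one, R.mem_Kf.1 σ.2]
    simp [show ((1 : ZMod 3)).val = 1 from rfl]
  exact ⟨⟨μ, hμK⟩, hμ.of_map_of_injective (f := R.Kf.val) R.Kf.val.injective⟩

/-- The chosen root of unity. -/
def zeta3 : R.Kf := R.exists_zeta.choose

/-- The cube root of unity is primitive. -/
lemma zeta3_spec : IsPrimitiveRoot R.zeta3 3 := R.exists_zeta.choose_spec

/-- The element `2ζ + 1` squares to `-3`. -/
lemma isEis : IsEis (2 * R.zeta3 + 1) where
  sq := by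
    have h := R.zeta3_spec.geom_sum_eq_zero (by norm_num : 1 < 3)
    simp [Finset.sum_range_succ] at h
    linear_combination 4 * h
  deg := R.finrank_Kf

instance pid_Kf : IsPrincipalIdealRing (𝓞 R.Kf) := R.isEis.pid

/-- Fields with a cube root of unity are totally complex. -/
lemma not_real {F : Type*} [Field F] [NumberField F] {z : F} (hz : IsPrimitiveRoot z 3)
    (v : InfinitePlace F) : v.IsComplex :=
  (nrRealPlaces_eq_zero_iff.1
    (InfinitePlace.IsPrimitiveRoot.nrRealPlaces_eq_zero_of_two_lt (by norm_num) hz)).isComplex v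

instance cplx_Kf : IsTotallyComplex R.Kf := ⟨not_real R.zeta3_spec⟩

instance cplx_Lf : IsTotallyComplex R.Lf :=
  ⟨not_real (R.zeta3_spec.map_of_injective (f := algebraMap R.Kf R.Lf)
    (algebraMap R.Kf R.Lf).injective)⟩

instance cplx_Mf : IsTotallyComplex R.Mf :=
  ⟨not_real ((R.zeta3_spec.map_of_injective (f := algebraMap R.Kf R.Lf)
    (algebraMap R.Kf R.Lf).injective).map_of_injective (f := algebraMap R.Lf R.Mf)
    (algebraMap R.Lf R.Mf).injective)⟩

/-- An element of `G_L` moving `M`. -/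
def jM : GQ := (R.surj exists_q8_not_c4.choose).choose

lemma e_jM : R.e R.jM = exists_q8_not_c4.choose := (R.surj _).choose_spec

lemma jM_q8 : IsQ8 (R.e R.jM) := by rw [R.e_jM]; exact exists_q8_not_c4.choose_spec.1

/-- The chosen generator is outside the cyclic part. -/
lemma jM_not_c4 : ¬IsC4 (R.e R.jM) := by rw [R.e_jM]; exact exists_q8_not_c4.choose_spec.2

/-- The chosen generator fixes the sextic field. -/
lemma jM_mem : R.jM ∈ R.Lf.fixingSubgroup := R.mem_Lf.2 R.jM_q8

lemma smul_mem_Mf {σ : GQ} (hσ : σ ∈ R.Lf.fixingSubgroup) {x : Qbar} (hx : x ∈ R.Mf) :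
    σ x ∈ R.Mf := by
  rw [← InfiniteGalois.fixedField_fixingSubgroup R.Mf]
  intro m
  show m.1 (σ x) = σ x
  have hc : σ⁻¹ * m.1 * σ⁻¹⁻¹ ∈ R.Mf.fixingSubgroup := by
    rw [R.mem_Mf, map_mul, map_mul, map_inv R.e σ⁻¹]
    exact c4_conj_q8 _ _ (R.mem_Mf.1 m.2) (R.mem_Lf.1 (inv_mem hσ))
  have := (IntermediateField.mem_fixingSubgroup_iff _ _).1 hc x hx
  rw [inv_inv, AlgEquiv.mul_apply, AlgEquiv.mul_apply] at this
  have h := congrArg σ this
  rwa [← AlgEquiv.mul_apply σ σ⁻¹, mul_inv_cancel, AlgEquiv.one_apply] at h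

/-- The conjugation of `M` over `L` is given by any element of `G_L` moving `M`. -/
theorem conj_eq {σ : GQ} (hσ : σ ∈ R.Lf.fixingSubgroup) (hσM : ¬IsC4 (R.e σ)) (x : R.Mf) :
    ((LT.Theta.Quad.conj R.Lf R.Mf x : R.Mf) : Qbar) = σ (x : Qbar) := by
  let t : R.Mf →ₐ[R.Lf] R.Mf :=
    { toFun := fun y => ⟨σ (y : Qbar), R.smul_mem_Mf hσ y.2⟩
      map_one' := Subtype.ext (map_one σ)
      map_mul' := fun a b => Subtype.ext (map_mul σ (a : Qbar) b)
      map_zero' := Subtype.ext (map_zero σ)
      map_add' := fun a b => Subtype.ext (map_add σ (a : Qbar) b)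
      commutes' := fun a => Subtype.ext
        ((IntermediateField.mem_fixingSubgroup_iff _ _).1 hσ (a : Qbar) a.2) }
  let t' : Gal(R.Mf/R.Lf) := AlgEquiv.ofBijective t t.bijective
  have ht' : t' ≠ 1 := by
    intro h
    refine hσM (R.mem_Mf.1 ((IntermediateField.mem_fixingSubgroup_iff _ _).2 fun y hy => ?_))
    exact congrArg Subtype.val (AlgEquiv.congr_fun h ⟨y, hy⟩)
  rw [← (LT.Theta.Quad.eq_one_or_conj R.Lf R.Mf t').resolve_left ht']
  rfl

end GRep

namespace GRep

/-- The input of the theorem. -/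
def ofContinuous (ρ : GQ →* GL3) (hρ : Continuous ρ) (hsurj : Function.Surjective ρ)
    (hdet : ∀ σ : GQ,
      Matrix.GeneralLinearGroup.det (ρ σ) = WeierstrassCurve.modThreeCyclotomicChar σ) : GRep where
  e := ρ
  surj := hsurj
  open_ker := (isOpen_discrete ({1} : Set GL3)).preimage hρ
  det σ ζ hζ := by
    have h1 : ((ρ σ).val.det : ZMod 3) =
        ((WeierstrassCurve.modThreeCyclotomicChar σ : (ZMod 3)ˣ) : ZMod 3) :=
      congrArg Units.val (hdet σ)
    rw [h1, WeierstrassCurve.modThreeCyclotomicChar_apply]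
    have hu : IsUnit ζ := IsUnit.of_pow_eq_one hζ three_ne_zero
    have h2 := modularCyclotomicCharacter.spec (AlgebraicClosure ℚ)
      (IsAlgClosed.card_rootsOfUnity_eq (AlgebraicClosure ℚ) 3)
      (σ : AlgebraicClosure ℚ ≃+* AlgebraicClosure ℚ) (t := hu.unit)
      ((mem_rootsOfUnity _ _).2
        (Units.ext (by rw [Units.val_pow_eq_pow_val, IsUnit.unit_spec, hζ, Units.val_one])))
    simpa using h2

/-- Outside a finite set of primes the representation is unramified. -/
lemma exists_unramified (R : GRep) :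
    ∃ T : Finset ℕ, 3 ∈ T ∧ ∀ p : ℕ, p.Prime → p ∉ T → ∀ A : ValuationSubring Qbar,
      A.LiesOverPrime p → ∀ σ ∈ A.inertiaSubgroupIn ℚ, R.e σ = 1 := by
  classical
  have : IsGalois ℚ R.Nf := IsGalois.mk
  obtain ⟨T, hT⟩ := exists_finite_inertiaTrivial R.Nf
  refine ⟨insert 3 T, Finset.mem_insert_self _ _, fun p hp hpT A hA σ hσ => ?_⟩
  refine R.e_eq_of_mem_Nf ((restrictNormalHom_eq_one_iff R.Nf σ).1 ?_)
  exact hT p hp (fun h => hpT (Finset.mem_insert_of_mem h)) A hA _
    fun c => mem_centerIn_of_inertia R.Nf hp hA hσ c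

end GRep

end FermatAgent.LT2.Fields
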