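import Fermat.Agent.LT2.Fields.Lattice
import Fermat.Agent.LT.Octa.Unram

/-!
# The places of the sextic field away from the bad primes

Nothing is assumed on inertia at three.
-/

set_option autoImplicit false
set_option maxRecDepth 20000

noncomputable section

open scoped Classical NumberField Pointwise
open IsDedekindDomain

namespace FermatAgent.LT2.Fields

open CFT CFT.Coh CFT.Local CFT.Global FermatAgent.GaloisBasic
open FermatAgent.LT FermatAgent.LT.Octa
open FermatAgent.LT.Period (GL3 refl3)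

namespace GRep

variable (R : GRep) {q : ℕ} [hq : Fact q.Prime] {g : GQ} {w : PK R.Lf}

lemma ordP_eq_of_locField (hw : IsPoint w q g) (h : locField q g R.Mf = locField q g R.Lf)
    {x : R.Lf} (hx : x ≠ 0) :
    ordP (primeAt R.Mf q g) (x : Qbar) = ordP w (x : Qbar) := by
  have hx' : (x : Qbar) ≠ 0 := by simpa using hx
  rw [← (isPoint_primeAt (K := R.Mf) (q := q) (g := g)).ord_eq (R.Lf_le_Mf x.2) hx',
    ← hw.ord_eq x.2 hx']
  have key : ∀ (F F' : IntermediateField ℚ_[q] (PadicAlgCl q)) [FiniteDimensional ℚ_[q] F]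
      [FiniteDimensional ℚ_[q] F'] (y : PadicAlgCl q), F = F' → ord F y = ord F' y := by
    intro F F' _ _ y e; subst e; rfl
  exact key _ _ _ h

/-- All of the local image in the cyclic subgroup: two primes of degree one. -/
theorem split_prime (hw : IsPoint w q g)
    (hc : ∀ d ∈ (locField q g R.Lf).fixingSubgroup, IsC4 (R.e (locHom q g d))) :
    locField q g R.Mf = locField q g R.Lf ∧
      (primeAt R.Mf q g).asIdeal.absNorm = w.asIdeal.absNorm ∧
      primeAt R.Mf q (g * R.jM) ≠ primeAt R.Mf q g := by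
  have hF : locField q g R.Mf = locField q g R.Lf :=
    locField_eq_of_forall R.Lf_le_Mf fun d hd => R.mem_Mf.2 (hc d hd)
  refine ⟨hF, ?_, fun heq => ?_⟩
  · rw [← resCard_eq_absNorm (isPoint_primeAt (K := R.Mf) (q := q) (g := g)),
      ← resCard_eq_absNorm hw, hF]
  have hP : IsPoint (primeAt R.Mf q g) q (g * R.jM) := heq ▸ isPoint_primeAt
  obtain ⟨d, u, hu, hgu⟩ := (isPoint_primeAt (K := R.Mf) (q := q) (g := g)).exists_mul hP
  rw [mul_assoc, mul_right_inj] at hgu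
  have hl : locHom q g d = R.jM * u⁻¹ := by rw [hgu, mul_inv_cancel_right]
  have hd : d ∈ (locField q g R.Lf).fixingSubgroup := by
    rw [fixingSubgroup_locField, Subgroup.mem_comap, hl]
    exact mul_mem R.jM_mem (inv_mem (IntermediateField.fixingSubgroup_antitone R.Lf_le_Mf hu))
  have := hc d hd
  rw [hl] at this
  exact R.jM_not_c4 (R.mem_Mf.1 (by simpa using mul_mem (R.mem_Mf.2 this) hu))

/-- The data of a place split in `M`. -/
structure SplitAt (g : GQ) (w : PK R.Lf) : Prop where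
  unr : Theta.Quad.IsUnr R.Lf R.Mf w
  not_inert : ¬Theta.Place.IsInert R.Lf R.Mf w
  ne : primeAt R.Mf q (g * R.jM) ≠ primeAt R.Mf q g
  ord₁ : ∀ x : R.Lf, x ≠ 0 → ordP (primeAt R.Mf q g) (x : Qbar) = ordP w (x : Qbar)
  ord₂ : ∀ x : R.Lf, x ≠ 0 → ordP (primeAt R.Mf q (g * R.jM)) (x : Qbar) = ordP w (x : Qbar)
  frob : ∃ σ ∈ R.Mf.fixingSubgroup, R.IsFrobAt q g σ w.asIdeal.absNorm ∧
    IsUnramWith R.chi (primeAt R.Mf q g) (chi4 (R.e σ)) ∧
    IsUnramWith R.chi (primeAt R.Mf q (g * R.jM)) (-chi4 (R.e σ))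

/-- The data of a place staying prime in `M`. -/
structure InertAt (g : GQ) (w : PK R.Lf) : Prop where
  unr : Theta.Quad.IsUnr R.Lf R.Mf w
  inert : Theta.Place.IsInert R.Lf R.Mf w
  eq : primeAt R.Mf q (g * R.jM) = primeAt R.Mf q g
  ord : ∀ x : R.Lf, x ≠ 0 → ordP (primeAt R.Mf q g) (x : Qbar) = ordP w (x : Qbar)
  chi : IsUnramWith R.chi (primeAt R.Mf q g) 2
  frob : ∃ σ ∈ R.Lf.fixingSubgroup, ¬IsC4 (R.e σ) ∧ R.IsFrobAt q g σ w.asIdeal.absNorm

/-- The split case. -/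
theorem splitAt_of_c4 (hw : IsPoint w q g) (hI : ∀ g, R.NoInertia q g R.Lf) {d₀ : Gal' q}
    (hd₀ : d₀ ∈ (locField q g R.Lf).fixingSubgroup)
    (hfr : R.IsFrobAt q g (locHom q g d₀) w.asIdeal.absNorm)
    (hc : ∀ d ∈ (locField q g R.Lf).fixingSubgroup, IsC4 (R.e (locHom q g d))) :
    R.SplitAt (q := q) g w := by
  set j := R.jM
  set σ := locHom q g d₀
  have hc' : ∀ d ∈ (locField q (g * j) R.Lf).fixingSubgroup, IsC4 (R.e (locHom q (g * j) d)) := by
    intro d hd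
    have e : locHom q (g * j) d = j⁻¹ * locHom q g d * j := by
      rw [locHom_apply, locHom_apply, mul_inv_rev]; group
    have hd' : d ∈ (locField q g R.Lf).fixingSubgroup := by
      rw [fixingSubgroup_locField, Subgroup.mem_comap] at hd ⊢
      rw [e] at hd
      have := mul_mem (mul_mem R.jM_mem hd) (inv_mem R.jM_mem)
      rwa [show j * (j⁻¹ * locHom q g d * j) * j⁻¹ = locHom q g d by group] at this
    rw [e, map_mul, map_mul]
    have := c4_conj_q8 _ _ (hc d hd') (R.mem_Lf.1 (inv_mem R.jM_mem))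
    rwa [map_inv R.e R.jM, inv_inv, ← map_inv] at this
  obtain ⟨hF, hN, hne⟩ := R.split_prime hw hc
  obtain ⟨hF', hN', -⟩ := R.split_prime (R.isPoint_mul_jM hw) hc'
  obtain ⟨hu, hni⟩ := R.isUnr_of_ne hw hne
  refine ⟨hu, hni, hne, fun x hx => R.ordP_eq_of_locField hw hF hx,
    fun x hx => R.ordP_eq_of_locField (R.isPoint_mul_jM hw) hF' hx, σ, ?_, hfr, ?_, ?_⟩
  · exact R.mem_Mf.2 (hc d₀ hd₀)
  · exact R.isUnramWith_of_frobAt isPoint_primeAt hI (R.mem_Mf.2 (hc d₀ hd₀)) (hN.symm ▸ hfr)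
  · have hfr' : R.IsFrobAt q (g * j) (j⁻¹ * σ * j) (primeAt R.Mf q (g * j)).asIdeal.absNorm := by
      rw [hN']; exact R.isFrobAt_mul hfr
    have hj : j⁻¹ * σ * j ∈ R.Mf.fixingSubgroup := by
      rw [R.mem_Mf, map_mul, map_mul]
      have := c4_conj_q8 _ _ (hc d₀ hd₀) (R.mem_Lf.1 (inv_mem R.jM_mem))
      rwa [map_inv R.e R.jM, inv_inv, ← map_inv] at this
    have h := R.isUnramWith_of_frobAt isPoint_primeAt hI hj hfr'
    have hjinv : ¬IsC4 (R.e j⁻¹) := fun h =>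
      R.jM_not_c4 (R.mem_Mf.1 (by simpa using inv_mem (R.mem_Mf.2 h)))
    rwa [map_mul, map_mul,
      show R.e j = (R.e j⁻¹)⁻¹ by rw [map_inv, inv_inv],
      chi4_conj _ _ (hc d₀ hd₀) (R.mem_Lf.1 (inv_mem R.jM_mem)) hjinv] at h

/-- An element whose residue is not in the subfield of `N` elements. -/
private lemma exists_pow_sub_notMem {K : Type*} [Field K] [NumberField K]
    (P : HeightOneSpectrum (𝓞 K)) {N : ℕ} (hN : 1 < N) (hlt : N < P.asIdeal.absNorm) :
    ∃ a : 𝓞 K, a ^ N - a ∉ P.asIdeal := by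
  by_contra hno
  push Not at hno
  have h1 := absNorm_le_of_pow hN hno
  omega

/-- The local image outside the cyclic subgroup: index two. -/
private lemma relIndex_eq_two {d₀ : Gal' q} (hd₀ : d₀ ∈ (locField q g R.Lf).fixingSubgroup)
    (hc : ¬IsC4 (R.e (locHom q g d₀))) :
    (locField q g R.Mf).fixingSubgroup.relIndex (locField q g R.Lf).fixingSubgroup = 2 := by
  have hq8 := R.mem_Lf.1 (locHom_mem hd₀)
  rw [Subgroup.relIndex_eq_two_iff]
  have hmem : ∀ d, d ∈ (locField q g R.Lf).fixingSubgroup →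
      (d ∈ (locField q g R.Mf).fixingSubgroup ↔ IsC4 (R.e (locHom q g d))) := fun d _ => by
    rw [fixingSubgroup_locField, Subgroup.mem_comap, R.mem_Mf]
  refine ⟨d₀, hd₀, fun b hb => ?_⟩
  rw [hmem b hb, hmem _ (mul_mem hb hd₀), map_mul, map_mul, xor_iff_iff_not]
  refine ⟨fun h hb' => hc ?_, fun hb' => ?_⟩
  · have := mul_mem (inv_mem (show R.e (locHom q g b) ∈ c4 from hb'))
      (show R.e (locHom q g b) * R.e (locHom q g d₀) ∈ c4 from h)
    rwa [inv_mul_cancel_left] at this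
  · have hbi : ¬IsC4 (R.e (locHom q g b))⁻¹ := fun hh => hb' (by
      have := inv_mem (show (R.e (locHom q g b))⁻¹ ∈ c4 from hh)
      rwa [inv_inv] at this)
    have := q8_diff_mem_c4 _ _ (q8.inv_mem (R.mem_Lf.1 (locHom_mem hb))) hq8 hbi hc
    rwa [inv_inv] at this

/-- A residue extension: residue degree two and no ramification. -/
private lemma ordP_absNorm_of_ne (hw : IsPoint w q g)
    (hrel : (locField q g R.Mf).fixingSubgroup.relIndex (locField q g R.Lf).fixingSubgroup = 2)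
    (hne : (primeAt R.Mf q g).asIdeal.absNorm ≠ w.asIdeal.absNorm) :
    (∀ x : R.Lf, x ≠ 0 → ordP (primeAt R.Mf q g) (x : Qbar) = ordP w (x : Qbar)) ∧
      (primeAt R.Mf q g).asIdeal.absNorm = w.asIdeal.absNorm ^ 2 := by
  set P := primeAt R.Mf q g
  have hP : IsPoint P q g := isPoint_primeAt
  obtain ⟨e, f, he0, hf0, hf, hord, hef⟩ :=
    exists_ramification (locField_mono (q := q) (g := g) R.Lf_le_Mf)
  rw [hrel] at hef
  rw [resCard_eq_absNorm hP, resCard_eq_absNorm hw] at hf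
  have hf1 : f ≠ 1 := fun h1 => hne (by rw [hf, h1, pow_one])
  have h2 : f ≤ 2 := Nat.le_of_dvd two_pos ⟨e, hef.trans (mul_comm e f)⟩
  obtain rfl : f = 2 := by omega
  obtain rfl : e = 1 := by omega
  refine ⟨fun x hx => ?_, hf⟩
  have hx' : (x : Qbar) ≠ 0 := by simpa using hx
  have h1 := hord (embUx q g (Ux.mk (x : Qbar) hx'))
    (embUx_mem_starF (mem_starK_of_mem R.Lf x.2))
  rw [Nat.cast_one, one_mul, ordUx, ordUx, val_embUx] at h1
  rw [← hP.ord_eq (R.Lf_le_Mf x.2) hx', ← hw.ord_eq x.2 hx']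
  exact h1

/-- A larger residue field at an unramified prime: a generator with unit different. -/
private lemma isUnr_of_frob (hw : IsPoint w q g) {σ : GQ} (hσL : σ ∈ R.Lf.fixingSubgroup)
    (hc : ¬IsC4 (R.e σ)) (hfr : R.IsFrobAt q g σ w.asIdeal.absNorm)
    (hsame : ∀ x : Qbar, ‖emb q g (σ x)‖ = ‖emb q g x‖)
    (hlt : w.asIdeal.absNorm < (primeAt R.Mf q g).asIdeal.absNorm)
    (hnorm : ∀ x : R.Mf, ‖emb q (g * R.jM) (x : Qbar)‖ = ‖emb q g (x : Qbar)‖) :
    Theta.Quad.IsUnr R.Lf R.Mf w := by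
  obtain ⟨a, ha⟩ := exists_pow_sub_notMem (primeAt R.Mf q g) (N := w.asIdeal.absNorm)
    (Theta.Place.one_lt_qv w) hlt
  set x : R.Mf := (a : R.Mf)
  have hconj : emb q g ((Theta.Quad.conj R.Lf R.Mf x : R.Mf) : Qbar) =
      emb q g (σ (x : Qbar)) := by rw [R.conj_eq hσL hc]
  have hai : IsIntegral ℤ ((x : R.Mf) : Qbar) :=
    (NumberField.RingOfIntegers.isIntegral_coe a).map (IsScalarTower.toAlgHom ℤ R.Mf Qbar)
  have h1 : ‖emb q g (((Theta.Quad.conj R.Lf R.Mf x - x : R.Mf)) : Qbar)‖ = 1 := by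
    rw [AddSubgroupClass.coe_sub, map_sub, hconj]
    refine le_antisymm ?_ (not_lt.1 fun hlt' => ha ?_)
    · rw [sub_eq_add_neg]
      exact (IsUltrametricDist.norm_add_le_max _ _).trans (max_le
        (by rw [hsame]; exact norm_emb_int g a) (by rw [norm_neg]; exact norm_emb_int g a))
    rw [isPoint_primeAt (K := R.Mf) (q := q) (g := g)]
    push_cast
    rw [map_sub, map_pow]
    have h2 := hfr (x : Qbar) (R.le_Nf c4 x.2) hai
    rw [show emb q g (x : Qbar) ^ w.asIdeal.absNorm - emb q g (x : Qbar) =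
      (emb q g (σ (x : Qbar)) - emb q g (x : Qbar)) +
        -(emb q g (σ (x : Qbar)) - emb q g (x : Qbar) ^ w.asIdeal.absNorm) by ring]
    exact (IsUltrametricDist.norm_add_le_max _ _).trans_lt (max_lt hlt' (by rwa [norm_neg]))
  refine ⟨x, (R.mem_lattice_iff hw x).2 ⟨norm_emb_int g a, by rw [hnorm]; exact norm_emb_int g a⟩,
    ?_⟩
  rw [hw.valuation_eq_one_iff, R.emb_norm_eq, hnorm, h1, one_mul]

/-- One prime above with the same order: the place stays prime. -/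
private lemma isInert_of_ordP (hw : IsPoint w q g)
    (hordP : ∀ x : R.Lf, x ≠ 0 → ordP (primeAt R.Mf q g) (x : Qbar) = ordP w (x : Qbar))
    (hnorm : ∀ x : R.Mf, ‖emb q (g * R.jM) (x : Qbar)‖ = ‖emb q g (x : Qbar)‖) :
    Theta.Place.IsInert R.Lf R.Mf w := by
  intro x hx hN
  rw [R.valuation_lt_one_iff_emb hw, R.emb_norm_eq, hnorm] at hN
  have hlt : ‖emb q g (x : Qbar)‖ < 1 := by nlinarith [norm_nonneg (emb q g (x : Qbar))]
  have hπ0 : (Theta.Place.unif w : R.Lf) ≠ 0 := Theta.Place.unif_ne_zero w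
  have hπ0' : ((Theta.Place.unif w : R.Lf) : Qbar) ≠ 0 := by simpa using hπ0
  have hπ : ord (locField q g R.Mf) (emb q g ((Theta.Place.unif w : R.Lf) : Qbar)) = 1 := by
    rw [(isPoint_primeAt (K := R.Mf) (q := q) (g := g)).ord_eq
        (R.Lf_le_Mf (Theta.Place.unif w).2) hπ0',
      hordP _ hπ0, ordP_coe, Theta.Place.v_unif, WithZero.log_exp, neg_neg]
  have hle : ‖emb q g (x : Qbar)‖ ≤ ‖emb q g ((Theta.Place.unif w : R.Lf) : Qbar)‖ := by
    rw [norm_eq_zpow_ord _ (emb_mem_locField (R.Lf_le_Mf (Theta.Place.unif w).2))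
      ((_root_.map_ne_zero _).mpr hπ0'), hπ, zpow_one]
    exact norm_le_norm_unif _ (emb_mem_locField x.2) hlt
  have hu : ‖emb q g (((Theta.Place.unif w)⁻¹ • x : R.Mf) : Qbar)‖ ≤ 1 := by
    rw [Algebra.smul_def, IntermediateField.coe_mul, coe_algebraMap_LM,
      IntermediateField.coe_inv, map_mul, map_inv₀, norm_mul, norm_inv,
      inv_mul_le_iff₀ (norm_pos_iff.mpr ((_root_.map_ne_zero _).mpr hπ0')), mul_one]
    exact hle
  exact (R.mem_lattice_iff hw _).2 ⟨hu, by rw [hnorm]; exact hu⟩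

/-- The inert case. -/
theorem inertAt_of_not_c4 (hw : IsPoint w q g) (hI : ∀ g, R.NoInertia q g R.Lf) {m : ℕ}
    [NeZero m] {d₀ : Gal' q}
    (hd₀ : d₀ ∈ (locField q g R.Lf).fixingSubgroup)
    (hfr : R.IsFrobAt q g (locHom q g d₀) w.asIdeal.absNorm)
    (hall : ∀ d ∈ (locField q g R.Lf).fixingSubgroup,
      R.e (locHom q g d) = R.e (locHom q g d₀) ^ (frobExp (locField q g R.Lf) m d).val)
    (hc : ¬IsC4 (R.e (locHom q g d₀))) : R.InertAt (q := q) g w := by
  set σ := locHom q g d₀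
  have hσL : σ ∈ R.Lf.fixingSubgroup := locHom_mem hd₀
  have hq8 := R.mem_Lf.1 hσL
  set P := primeAt R.Mf q g
  have hP : IsPoint P q g := isPoint_primeAt
  have hsame : ∀ x : Qbar, ‖emb q g (σ x)‖ = ‖emb q g x‖ := fun x => by
    rw [emb_locHom, norm_apply]
  have heq : primeAt R.Mf q (g * R.jM) = P := by
    rw [← primeAt_mul_of_mem (q := q) (g := g * R.jM)
      (R.mul_c4_mem R.jM_mem R.jM_not_c4 hσL hc), mul_assoc, mul_inv_cancel_left]
    refine HeightOneSpectrum.ext (Ideal.ext fun a => ?_)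
    show ‖emb q (g * σ) ((a : R.Mf) : Qbar)‖ < 1 ↔ ‖emb q g ((a : R.Mf) : Qbar)‖ < 1
    rw [emb_mul, hsame]
  -- the Frobenius of `M`
  obtain ⟨m', hm', d₁, -, hd₁, hfr₁, hall₁⟩ :=
    R.exists_unr q g R.Mf (R.le_Nf c4) (R.noInertia_Mf hI)
  have hΓ : (locField q g R.Mf).fixingSubgroup ≤ (locField q g R.Lf).fixingSubgroup :=
    IntermediateField.fixingSubgroup_antitone (locField_mono R.Lf_le_Mf)
  have hd₀2 : d₀ * d₀ ∈ (locField q g R.Mf).fixingSubgroup := by
    rw [fixingSubgroup_locField, Subgroup.mem_comap, map_mul, R.mem_Mf, map_mul,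
      sq_eq_neg_one _ hq8 hc]
    exact c4_neg_one.1
  have hM1 : R.e (locHom q g d₁) = -1 := by
    have hc1 := R.mem_Mf.1 (locHom_mem hd₁)
    rw [hall d₁ (hΓ hd₁)] at hc1
    refine (hall d₁ (hΓ hd₁)).trans ((c4_pow_cases hq8 hc _ hc1).resolve_left fun h1 => ?_)
    have := hall₁ _ hd₀2
    rw [(hall d₁ (hΓ hd₁)).trans h1, one_pow, map_mul, map_mul, sq_eq_neg_one _ hq8 hc] at this
    revert this
    decide
  rw [resCard_eq_absNorm hP] at hfr₁
  have hchi := R.isUnramWith_of_frobAt hP hI (locHom_mem hd₁) hfr₁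
  rw [hM1, c4_neg_one.2] at hchi
  -- residue degree two
  have hne : P.asIdeal.absNorm ≠ w.asIdeal.absNorm := fun hh => by
    rw [hh] at hfr₁
    exact hc (R.e_eq_of_isFrobAt (R.le_Nf q8) (hI _) hσL (locHom_mem (hΓ hd₁)) hfr
      hfr₁ ▸ hM1.symm ▸ c4_neg_one.1)
  obtain ⟨hordP, hN⟩ := R.ordP_absNorm_of_ne hw (R.relIndex_eq_two hd₀ hc) hne
  have hlt : w.asIdeal.absNorm < P.asIdeal.absNorm :=
    hN ▸ lt_self_pow₀ (Theta.Place.one_lt_qv w) (by norm_num)
  have hnorm : ∀ x : R.Mf, ‖emb q (g * R.jM) (x : Qbar)‖ = ‖emb q g (x : Qbar)‖ :=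
    fun x => R.norm_eq_of_primeAt_eq heq x
  exact ⟨R.isUnr_of_frob hw hσL hc hfr hsame hlt hnorm, R.isInert_of_ordP hw hordP hnorm, heq,
    hordP, hchi, σ, hσL, hc, hfr⟩

/-- Without inertia on `G_L` every place is of one of the two kinds. -/
theorem split_or_inert (hw : IsPoint w q g) (hI : ∀ g, R.NoInertia q g R.Lf) :
    R.SplitAt (q := q) g w ∨ R.InertAt (q := q) g w := by
  obtain ⟨m, hm, d₀, -, hd₀, hfr, hall⟩ :=
    R.exists_unr q g R.Lf (R.le_Nf q8) (hI _)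
  rw [resCard_eq_absNorm hw] at hfr
  by_cases hc : IsC4 (R.e (locHom q g d₀))
  · refine Or.inl (R.splitAt_of_c4 hw hI hd₀ hfr fun d hd => ?_)
    rw [hall d hd]
    exact c4.pow_mem hc _
  · exact Or.inr (R.inertAt_of_not_c4 hw hI hd₀ hfr hall hc)

end GRep

end FermatAgent.LT2.Fields
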